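import Mathlib
import Fermat.Prelude.Def_FLTPrelim_Ramification
import Fermat.Prelude.Def_EllipticCurve_FrobeniusTrace

/-!
# P-BRIDGE: valuation subrings of `Qbar` versus primes of number fields — definitions

The Prelude phrases all local Galois-theoretic notions (primes, decomposition groups, inertia
groups, Frobenius elements) through valuation subrings `A` of `AlgebraicClosure ℚ`.
Mathlib's algebraic number theory is phrased through prime ideals of rings of integers.
This file contains the basic dictionary: the prime of a subring cut out by `A`.
-/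

set_option autoImplicit false

open NumberField

noncomputable section

namespace Fermat.Agent.Bridge

/-- The algebraic closure of `ℚ` used throughout the Prelude. -/
abbrev Qb : Type := AlgebraicClosure ℚ

/-- The absolute Galois group of `ℚ`. -/
abbrev GQ : Type := Qb ≃ₐ[ℚ] Qb

/-- The ring of all algebraic integers, as a subring of `Qbar`. -/
abbrev Zb : Subalgebra ℤ Qb := integralClosure ℤ Qb

/-- Integral elements lie in every valuation subring. -/
theorem mem_of_isIntegral {L : Type*} [Field L] (A : ValuationSubring L) {x : L}
    (hx : IsIntegral ℤ x) : x ∈ A := by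
  have h : IsIntegral A x := hx.tower_top
  obtain ⟨y, rfl⟩ := (IsIntegrallyClosed.isIntegral_iff (R := A) (K := L)).mp h
  exact y.2

/-- The inclusion of the ring of all algebraic integers into a valuation subring. -/
def zbToVal (A : ValuationSubring Qb) : Zb →+* A where
  toFun x := ⟨x.1, mem_of_isIntegral A x.2⟩
  map_one' := rfl
  map_mul' _ _ := rfl
  map_zero' := rfl
  map_add' _ _ := rfl

/-- The prime ideal of the ring of all algebraic integers cut out by a valuation subring of
`Qbar`. -/
def bigPrime (A : ValuationSubring Qb) : Ideal Zb :=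
  (IsLocalRing.maximalIdeal A).comap (zbToVal A)

instance (A : ValuationSubring Qb) : (bigPrime A).IsPrime :=
  Ideal.comap_isPrime _ _

theorem mem_bigPrime {A : ValuationSubring Qb} {x : Zb} :
    x ∈ bigPrime A ↔ (x : Qb) ∈ A.nonunits := by
  rw [bigPrime, Ideal.mem_comap, IsLocalRing.mem_maximalIdeal, mem_nonunits_iff,
    ValuationSubring.mem_nonunits_iff_exists_mem_maximalIdeal]
  constructor
  · intro h
    exact ⟨mem_of_isIntegral A x.2, h⟩
  · rintro ⟨_, h⟩
    exact h

/-- The inclusion of the ring of integers of a subfield of `Qbar` into a valuation subring. -/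
def ooToVal (A : ValuationSubring Qb) (E : IntermediateField ℚ Qb) : 𝓞 E →+* A where
  toFun x := ⟨((x : E) : Qb), mem_of_isIntegral A
    (by
      have h : IsIntegral ℤ (x : E) := x.2
      exact h.map (IsScalarTower.toAlgHom ℤ E Qb))⟩
  map_one' := by ext; simp
  map_mul' _ _ := by ext; simp
  map_zero' := by ext; simp
  map_add' _ _ := by ext; simp

/-- The prime ideal of the ring of integers of a subfield `E` of `Qbar` cut out by a valuation
subring of `Qbar`. -/
def primeUnder (A : ValuationSubring Qb) (E : IntermediateField ℚ Qb) : Ideal (𝓞 E) :=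
  (IsLocalRing.maximalIdeal A).comap (ooToVal A E)

instance (A : ValuationSubring Qb) (E : IntermediateField ℚ Qb) : (primeUnder A E).IsPrime :=
  Ideal.comap_isPrime _ _

theorem mem_primeUnder {A : ValuationSubring Qb} {E : IntermediateField ℚ Qb} {x : 𝓞 E} :
    x ∈ primeUnder A E ↔ (((x : E) : Qb)) ∈ A.nonunits := by
  rw [primeUnder, Ideal.mem_comap, IsLocalRing.mem_maximalIdeal, mem_nonunits_iff,
    ValuationSubring.mem_nonunits_iff_exists_mem_maximalIdeal]
  constructor
  · intro h
    exact ⟨(ooToVal A E x).2, h⟩
  · rintro ⟨_, h⟩
    exact h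

end Fermat.Agent.Bridge

end
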