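import Mathlib
import Fermat.Agent.Bridge.Defs

/-!
# P-BRIDGE: frozen interface statements

Each `Iface*` below is a `Prop`; the corresponding theorem (same name without `Iface`, lower
camel case) will be proved in its own file under `Fermat/Agent/Bridge/`.
-/

set_option autoImplicit false

open NumberField
open scoped Pointwise

noncomputable section

namespace Fermat.Agent.Bridge

/-- (B0a) membership in the decomposition group, elementwise. -/
def IfaceMemDecomp : Prop :=
  ∀ (A : ValuationSubring Qb) (σ : GQ),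
    σ ∈ A.decompositionSubgroup ℚ ↔ ∀ x : Qb, σ x ∈ A ↔ x ∈ A

/-- (B0b) membership in the inertia group, elementwise. -/
def IfaceMemInertia : Prop :=
  ∀ (A : ValuationSubring Qb) (σ : GQ),
    σ ∈ A.inertiaSubgroupIn ℚ ↔ (∀ x : Qb, σ x ∈ A ↔ x ∈ A) ∧ ∀ x ∈ A, σ x - x ∈ A.nonunits

/-- (B0c) it suffices to test on algebraic integers. -/
def IfaceMemInertiaInt : Prop :=
  ∀ (A : ValuationSubring Qb) (σ : GQ),
    σ ∈ A.inertiaSubgroupIn ℚ ↔ ∀ x : Qb, IsIntegral ℤ x → σ x - x ∈ A.nonunits

/-- (B0d) Frobenius elements, elementwise on algebraic integers. -/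
def IfaceFrobInt : Prop :=
  ∀ (A : ValuationSubring Qb) (q : ℕ), q.Prime → A.LiesOverPrime q → ∀ σ : GQ,
    A.IsFrobeniusAt σ q ↔ ∀ x : Qb, IsIntegral ℤ x → σ x - x ^ q ∈ A.nonunits

/-- (B1a) a valuation subring different from `⊤` lies over a unique prime number. -/
def IfaceExistsPrime : Prop :=
  ∀ A : ValuationSubring Qb, A ≠ ⊤ → ∃ q : ℕ, q.Prime ∧ A.LiesOverPrime q ∧
    ∀ q' : ℕ, q'.Prime → A.LiesOverPrime q' → q' = q

/-- (B1b) every nonzero prime of the ring of integers of a number field `E ⊆ Qbar` is cut out by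
a valuation subring of `Qbar`. -/
def IfaceExistsOver : Prop :=
  ∀ (E : IntermediateField ℚ Qb) [FiniteDimensional ℚ E] (P : Ideal (𝓞 E)) [P.IsPrime],
    P ≠ ⊥ → ∃ A : ValuationSubring Qb, primeUnder A E = P

/-- (B1c) two valuation subrings cutting out the same prime of `E` are conjugate under
`Gal(Qbar/E)`. -/
def IfaceConj : Prop :=
  ∀ (E : IntermediateField ℚ Qb) (A A' : ValuationSubring Qb),
    primeUnder A E = primeUnder A' E → ∃ σ : GQ, σ ∈ E.fixingSubgroup ∧ σ • A = A'

/-- (B1d) the prime cut out by `σ • A` is the translate of the prime cut out by `A`. -/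
def IfacePrimeUnderSmul : Prop :=
  ∀ (E : IntermediateField ℚ Qb) [FiniteDimensional ℚ E] [IsGalois ℚ E]
    (A : ValuationSubring Qb) (σ : GQ),
    primeUnder (σ • A) E = (AlgEquiv.restrictNormalHom E σ) • primeUnder A E

/-- (B2a) restriction maps the decomposition group of `A` onto the decomposition group of the
prime of `E` under `A`. -/
def IfaceMapDecomp : Prop :=
  ∀ (E : IntermediateField ℚ Qb) [FiniteDimensional ℚ E] [IsGalois ℚ E]
    (A : ValuationSubring Qb),
    (A.decompositionSubgroup ℚ).map (AlgEquiv.restrictNormalHom E) =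
      MulAction.stabilizer (E ≃ₐ[ℚ] E) (primeUnder A E)

/-- (B2b) restriction maps the inertia group of `A` onto the inertia group of the prime of `E`
under `A`. -/
def IfaceMapInertia : Prop :=
  ∀ (E : IntermediateField ℚ Qb) [FiniteDimensional ℚ E] [IsGalois ℚ E]
    (A : ValuationSubring Qb),
    (A.inertiaSubgroupIn ℚ).map (AlgEquiv.restrictNormalHom E) =
      (primeUnder A E).inertia (E ≃ₐ[ℚ] E)

/-- (B3) if all inertia groups above `q` act trivially on `E` (finite Galois over `ℚ`), then
every prime of `E` above `q` is unramified, and conversely. -/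
def IfaceUnramifiedIff : Prop :=
  ∀ (E : IntermediateField ℚ Qb) [FiniteDimensional ℚ E] [IsGalois ℚ E] (q : ℕ), q.Prime →
    ((∀ A : ValuationSubring Qb, A.LiesOverPrime q → A.inertiaSubgroupIn ℚ ≤ E.fixingSubgroup) ↔
      ∀ (P : Ideal (𝓞 E)) [P.IsPrime], (q : 𝓞 E) ∈ P → Algebra.IsUnramifiedAt ℤ P)

/-- (B4) MINKOWSKI: a homomorphism from `Gal(Qbar/ℚ)` with open kernel which is trivial on all
inertia groups is trivial. -/
def IfaceMinkowski.{u} : Prop :=
  ∀ {H : Type u} [Group H] (ρ : GQ →* H) (E : IntermediateField ℚ Qb),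
    FiniteDimensional ℚ E → E.fixingSubgroup ≤ ρ.ker →
    (∀ (q : ℕ), q.Prime → ∀ A : ValuationSubring Qb, A.LiesOverPrime q →
      A.inertiaSubgroupIn ℚ ≤ ρ.ker) →
    ∀ σ, ρ σ = 1

/-- (B4') MINKOWSKI, action form: if `Gal(Qbar/ℚ)` acts on a type `X` such that every point has
open stabiliser, finitely many points generate the action's kernel condition, and all inertia
groups act trivially, then the action is trivial.  (Finite `X` version.) -/
def IfaceMinkowskiAction.{u} : Prop :=
  ∀ {X : Type u} [Finite X] [MulAction GQ X],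
    (∀ x : X, ∃ E : IntermediateField ℚ Qb, FiniteDimensional ℚ E ∧
      ∀ σ ∈ E.fixingSubgroup, σ • x = x) →
    (∀ (q : ℕ), q.Prime → ∀ A : ValuationSubring Qb, A.LiesOverPrime q →
      ∀ σ ∈ A.inertiaSubgroupIn ℚ, ∀ x : X, σ • x = x) →
    ∀ (σ : GQ) (x : X), σ • x = x

/-- (B5a) Frobenius elements exist at every valuation subring over a prime. -/
def IfaceExistsFrob : Prop :=
  ∀ (A : ValuationSubring Qb) (q : ℕ), q.Prime → A.LiesOverPrime q →
    ∃ σ : GQ, A.IsFrobeniusAt σ q

/-- (B5b) two Frobenius elements at `A` differ by an element of the inertia group. -/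
def IfaceFrobUnique : Prop :=
  ∀ (A : ValuationSubring Qb) (q : ℕ) (σ τ : GQ), A.IsFrobeniusAt σ q → A.IsFrobeniusAt τ q →
    σ⁻¹ * τ ∈ A.inertiaSubgroupIn ℚ

/-- (B5c) the restriction of a Frobenius element at `A` to a finite Galois `E` is an arithmetic
Frobenius (in Mathlib's sense) at the prime of `E` under `A`. -/
def IfaceFrobRestrict : Prop :=
  ∀ (E : IntermediateField ℚ Qb) [FiniteDimensional ℚ E] [IsGalois ℚ E]
    (A : ValuationSubring Qb) (q : ℕ), q.Prime → A.LiesOverPrime q → ∀ σ : GQ,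
    A.IsFrobeniusAt σ q → IsArithFrobAt ℤ (AlgEquiv.restrictNormalHom E σ) (primeUnder A E)

/-- (B5d) every arithmetic Frobenius of a finite Galois `E` at the prime under `A` is the
restriction of a Frobenius element at `A`. -/
def IfaceFrobLift : Prop :=
  ∀ (E : IntermediateField ℚ Qb) [FiniteDimensional ℚ E] [IsGalois ℚ E]
    (A : ValuationSubring Qb) (q : ℕ), q.Prime → A.LiesOverPrime q → ∀ τ : E ≃ₐ[ℚ] E,
    IsArithFrobAt ℤ τ (primeUnder A E) →
    ∃ σ : GQ, A.IsFrobeniusAt σ q ∧ AlgEquiv.restrictNormalHom E σ = τ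

end Fermat.Agent.Bridge

end
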