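import Mathlib
import Fermat.Agent.Bridge.Interfaces
import Fermat.Agent.S54.FrobValuation

/-!
# P-BRIDGE, module M1: elementwise characterisations

Decomposition groups, inertia groups and Frobenius elements of valuation subrings of `Qbar`,
described elementwise (on all elements, and on algebraic integers).
-/

set_option autoImplicit false

open NumberField
open scoped Pointwise

noncomputable section

namespace Fermat.Agent.Bridge

theorem qb_isAlgebraic_int (x : Qb) : IsAlgebraic ℤ x :=
  (IsFractionRing.isAlgebraic_iff ℤ ℚ Qb).mpr ((AlgebraicClosure.isAlgebraic ℚ).isAlgebraic x)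

section general

variable {L : Type*} [Field L] (A : ValuationSubring L)

theorem val_eq_one_of_not_mem_nonunits {x : L} (hx : x ∈ A) (hn : x ∉ A.nonunits) :
    A.valuation x = 1 :=
  le_antisymm ((A.valuation_le_one_iff _).mpr hx)
    (not_lt.mp (fun h => hn ((ValuationSubring.mem_nonunits_iff A).mpr h)))

theorem mul_mem_nonunits_left {x y : L} (hx : x ∈ A.nonunits) (hy : y ∈ A) :
    x * y ∈ A.nonunits := by
  rw [ValuationSubring.mem_nonunits_iff] at hx ⊢
  rw [map_mul]
  exact mul_lt_one_of_nonneg_of_lt_one_left zero_le hx ((A.valuation_le_one_iff _).mpr hy)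

theorem mul_mem_nonunits_right {x y : L} (hx : x ∈ A) (hy : y ∈ A.nonunits) :
    x * y ∈ A.nonunits := by
  rw [mul_comm]
  exact mul_mem_nonunits_left A hy hx

theorem add_mem_nonunits {x y : L} (hx : x ∈ A.nonunits) (hy : y ∈ A.nonunits) :
    x + y ∈ A.nonunits := by
  rw [ValuationSubring.mem_nonunits_iff] at hx hy ⊢
  exact Valuation.map_add_lt _ hx hy

theorem neg_mem_nonunits {x : L} (hx : x ∈ A.nonunits) : -x ∈ A.nonunits := by
  rw [ValuationSubring.mem_nonunits_iff] at hx ⊢
  rwa [Valuation.map_neg]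

theorem sub_mem_nonunits {x y : L} (hx : x ∈ A.nonunits) (hy : y ∈ A.nonunits) :
    x - y ∈ A.nonunits := by
  rw [sub_eq_add_neg]
  exact add_mem_nonunits A hx (neg_mem_nonunits A hy)

theorem mem_of_mem_nonunits {x : L} (hx : x ∈ A.nonunits) : x ∈ A := by
  rw [ValuationSubring.mem_nonunits_iff] at hx
  exact (A.valuation_le_one_iff _).mp hx.le

theorem mem_nonunits_of_pow_mem {x : L} {n : ℕ} (hx : x ^ n ∈ A.nonunits) :
    x ∈ A.nonunits := by
  rw [ValuationSubring.mem_nonunits_iff] at hx ⊢
  rw [map_pow] at hx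
  by_contra h
  exact absurd hx (not_lt.mpr (one_le_pow₀ (not_lt.mp h)))

theorem pow_mem_nonunits {x : L} {n : ℕ} (hn : n ≠ 0) (hx : x ∈ A.nonunits) :
    x ^ n ∈ A.nonunits := by
  obtain ⟨m, rfl⟩ := Nat.exists_eq_succ_of_ne_zero hn
  rw [pow_succ]
  exact mul_mem_nonunits_right A (pow_mem (mem_of_mem_nonunits A hx) m) hx

end general


/-! ### The prime under a valuation subring -/

section prime

variable (A : ValuationSubring Qb)

theorem natCast_val_eq_one_of_no_prime (h : ∀ q : ℕ, q.Prime → (q : Qb) ∉ A.nonunits) (n : ℕ)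
    (hn : n ≠ 0) : A.valuation (n : Qb) = 1 := by
  induction n using induction_on_primes with
  | zero => exact absurd rfl hn
  | one => simp
  | prime_mul p a hp ha =>
    have ha0 : a ≠ 0 := fun h0 => hn (by rw [h0, mul_zero])
    rw [Nat.cast_mul, map_mul, ha ha0, mul_one]
    exact val_eq_one_of_not_mem_nonunits A (natCast_mem A p) (h p hp)

theorem intCast_val_eq_one_of_no_prime (h : ∀ q : ℕ, q.Prime → (q : Qb) ∉ A.nonunits) (n : ℤ)
    (hn : n ≠ 0) : A.valuation (n : Qb) = 1 := by
  obtain ⟨m, rfl | rfl⟩ := Int.eq_nat_or_neg n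
  · have hm : m ≠ 0 := fun h0 => hn (by rw [h0]; rfl)
    exact_mod_cast natCast_val_eq_one_of_no_prime A h m hm
  · have hm : m ≠ 0 := fun h0 => hn (by rw [h0]; rfl)
    push_cast
    rw [Valuation.map_neg]
    exact natCast_val_eq_one_of_no_prime A h m hm

/-- Every element of a valuation subring of `Qbar` is a quotient of algebraic integers with
denominator a unit of the valuation subring. -/
theorem exists_frac {x : Qb} (hx : x ∈ A) :
    ∃ b s : Qb, IsIntegral ℤ b ∧ IsIntegral ℤ s ∧ s ∉ A.nonunits ∧ x * s = b := by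
  by_cases h : ∃ q : ℕ, q.Prime ∧ (q : Qb) ∈ A.nonunits
  · obtain ⟨q, hq, hqA⟩ := h
    exact Fermat.Agent.S54.exists_integral_frac A hq hqA (qb_isAlgebraic_int x) hx
  · push Not at h
    obtain ⟨n, hn0, hint⟩ := (qb_isAlgebraic_int x).exists_integral_multiple
    refine ⟨n • x, (n : Qb), hint, isIntegral_algebraMap (R := ℤ) (A := Qb) (x := n), ?_, ?_⟩
    · intro hmem
      rw [ValuationSubring.mem_nonunits_iff, intCast_val_eq_one_of_no_prime A h n hn0] at hmem
      exact lt_irrefl _ hmem
    · rw [zsmul_eq_mul, mul_comm]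

/-- A valuation subring of `Qbar` containing no prime number in its maximal ideal is `⊤`. -/
theorem eq_top_of_no_prime (h : ∀ q : ℕ, q.Prime → (q : Qb) ∉ A.nonunits) : A = ⊤ := by
  rw [eq_top_iff]
  intro x _
  obtain ⟨n, hn0, hint⟩ := (qb_isAlgebraic_int x).exists_integral_multiple
  have h1 : n • x ∈ A := mem_of_isIntegral A hint
  have h2 := intCast_val_eq_one_of_no_prime A h n hn0
  rw [← A.valuation_le_one_iff] at h1 ⊢
  rwa [zsmul_eq_mul, map_mul, h2, one_mul] at h1

theorem existsPrime : IfaceExistsPrime := by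
  intro A hA
  have h : ∃ q : ℕ, q.Prime ∧ (q : Qb) ∈ A.nonunits := by
    by_contra hcon
    push Not at hcon
    exact hA (eq_top_of_no_prime A hcon)
  obtain ⟨q, hq, hqA⟩ := h
  refine ⟨q, hq, hqA, fun q' hq' hq'A => ?_⟩
  by_contra hne
  have hcop : Nat.Coprime q' q := (Nat.coprime_primes hq' hq).mpr hne
  have hdvd : ¬ (q : ℤ) ∣ (q' : ℤ) := by
    intro hd
    have := (Nat.prime_dvd_prime_iff_eq hq hq').mp (by exact_mod_cast hd)
    exact hne this.symm
  have := Fermat.Agent.S54.intCast_not_mem_nonunits A hq hqA hdvd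
  apply this
  exact_mod_cast hq'A

end prime


/-! ### Decomposition and inertia groups, elementwise -/

section groups

theorem memDecomp : IfaceMemDecomp := by
  intro A σ
  rw [MulAction.mem_stabilizer_iff]
  constructor
  · intro h x
    have h1 : σ x ∈ σ • A ↔ x ∈ A := by
      rw [ValuationSubring.mem_pointwise_smul_iff_inv_smul_mem]
      have : σ⁻¹ • σ x = x := by
        show σ⁻¹ (σ x) = x
        exact σ.symm_apply_apply x
      rw [this]
    rwa [h] at h1
  · intro h
    apply SetLike.ext
    intro x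
    rw [ValuationSubring.mem_pointwise_smul_iff_inv_smul_mem]
    have h1 := h (σ⁻¹ • x)
    have : σ (σ⁻¹ • x) = x := by
      show σ (σ⁻¹ x) = x
      exact σ.apply_symm_apply x
    rw [this] at h1
    exact h1.symm

theorem memInertia : IfaceMemInertia := by
  intro A σ
  constructor
  · intro hσ
    obtain ⟨τ, hτ, rfl⟩ := hσ
    refine ⟨(memDecomp A _).mp τ.2, fun z hz => ?_⟩
    have hmem : (τ : GQ) z ∈ A := ((τ • (⟨z, hz⟩ : A) : A)).2
    have hker : MulSemiringAction.toRingAut (A.decompositionSubgroup ℚ)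
        (IsLocalRing.ResidueField A) τ = 1 := hτ
    have h1 : τ • IsLocalRing.residue A ⟨z, hz⟩ = IsLocalRing.residue A ⟨z, hz⟩ := by
      have := congrArg (fun e : RingAut (IsLocalRing.ResidueField A) =>
        e (IsLocalRing.residue A ⟨z, hz⟩)) hker
      simpa using this
    rw [← IsLocalRing.ResidueField.residue_smul] at h1
    have h2 : IsLocalRing.residue A (τ • (⟨z, hz⟩ : A) - ⟨z, hz⟩) = 0 := by
      rw [map_sub, h1, sub_self]
    rw [IsLocalRing.residue_eq_zero_iff] at h2
    rw [ValuationSubring.mem_nonunits_iff_exists_mem_maximalIdeal]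
    exact ⟨sub_mem hmem hz, h2⟩
  · rintro ⟨hD, hI⟩
    have hmem : σ ∈ A.decompositionSubgroup ℚ := (memDecomp A σ).mpr hD
    refine ⟨⟨σ, hmem⟩, ?_, rfl⟩
    show MulSemiringAction.toRingAut (A.decompositionSubgroup ℚ)
        (IsLocalRing.ResidueField A) ⟨σ, hmem⟩ = 1
    apply RingEquiv.ext
    intro x
    obtain ⟨a, rfl⟩ := IsLocalRing.residue_surjective x
    show (⟨σ, hmem⟩ : A.decompositionSubgroup ℚ) • IsLocalRing.residue A a =
      IsLocalRing.residue A a
    rw [← IsLocalRing.ResidueField.residue_smul, ← sub_eq_zero, ← map_sub,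
      IsLocalRing.residue_eq_zero_iff, ← ValuationSubring.coe_mem_nonunits_iff]
    exact hI a a.2

end groups


/-! ### Testing on algebraic integers -/

section integers

variable (A : ValuationSubring Qb)

/-- An automorphism preserving the non-units among algebraic integers maps `A` into `A`. -/
theorem map_mem_of_preserves (τ : GQ)
    (hτ : ∀ x, IsIntegral ℤ x → (τ x ∈ A.nonunits ↔ x ∈ A.nonunits))
    {x : Qb} (hx : x ∈ A) : τ x ∈ A := by
  obtain ⟨b, s, hb, hs, hsn, hxs⟩ := exists_frac A hx
  have hτb : τ b ∈ A := mem_of_isIntegral A (map_isIntegral_int τ hb)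
  have hτs : IsIntegral ℤ (τ s) := map_isIntegral_int τ hs
  have hτsn : τ s ∉ A.nonunits := fun h => hsn ((hτ s hs).mp h)
  have hv1 : A.valuation (τ s) = 1 :=
    val_eq_one_of_not_mem_nonunits A (mem_of_isIntegral A hτs) hτsn
  have hmul : τ x * τ s = τ b := by rw [← map_mul, hxs]
  rw [← A.valuation_le_one_iff]
  calc A.valuation (τ x) = A.valuation (τ x) * A.valuation (τ s) := by rw [hv1, mul_one]
    _ = A.valuation (τ b) := by rw [← map_mul, hmul]
    _ ≤ 1 := (A.valuation_le_one_iff _).mpr hτb

/-- An automorphism preserving the non-units among algebraic integers lies in the decomposition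
group. -/
theorem forall_mem_iff_of_preserves (σ : GQ)
    (hσ : ∀ x, IsIntegral ℤ x → (σ x ∈ A.nonunits ↔ x ∈ A.nonunits)) (x : Qb) :
    σ x ∈ A ↔ x ∈ A := by
  constructor
  · intro hx
    have hinv : ∀ y, IsIntegral ℤ y → ((σ⁻¹ : GQ) y ∈ A.nonunits ↔ y ∈ A.nonunits) := by
      intro y hy
      have hy' : IsIntegral ℤ ((σ⁻¹ : GQ) y) := map_isIntegral_int _ hy
      have h := hσ _ hy'
      have e : σ ((σ⁻¹ : GQ) y) = y := σ.apply_symm_apply y
      rw [e] at h
      exact h.symm
    have h := map_mem_of_preserves A σ⁻¹ hinv hx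
    have e : (σ⁻¹ : GQ) (σ x) = x := σ.symm_apply_apply x
    rwa [e] at h
  · exact fun hx => map_mem_of_preserves A σ hσ hx

theorem memInertiaInt : IfaceMemInertiaInt := by
  intro A σ
  constructor
  · intro hσ x hx
    exact ((memInertia A σ).mp hσ).2 x (mem_of_isIntegral A hx)
  · intro h
    have hpres : ∀ x, IsIntegral ℤ x → (σ x ∈ A.nonunits ↔ x ∈ A.nonunits) := by
      intro x hx
      constructor
      · intro h1
        have := sub_mem_nonunits A h1 (h x hx)
        simpa using this
      · intro h1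
        have := add_mem_nonunits A (h x hx) h1
        simpa using this
    refine (memInertia A σ).mpr ⟨forall_mem_iff_of_preserves A σ hpres, fun x hx => ?_⟩
    obtain ⟨b, s, hb, hs, hsn, hxs⟩ := exists_frac A hx
    have hσx : σ x ∈ A := map_mem_of_preserves A σ hpres hx
    have hsA : s ∈ A := mem_of_isIntegral A hs
    have hbA : b ∈ A := mem_of_isIntegral A hb
    have hvs : A.valuation s = 1 := val_eq_one_of_not_mem_nonunits A hsA hsn
    have hmul : σ x * σ s = σ b := by rw [← map_mul, hxs]
    have hid : (σ x - x) * s = (σ b - b) - σ x * (σ s - s) := by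
      rw [← hmul, ← hxs]
      ring
    have hrhs : (σ b - b) - σ x * (σ s - s) ∈ A.nonunits :=
      sub_mem_nonunits A (h b hb) (mul_mem_nonunits_right A hσx (h s hs))
    rw [← hid, ValuationSubring.mem_nonunits_iff, map_mul, hvs, mul_one] at hrhs
    exact (ValuationSubring.mem_nonunits_iff A).mpr hrhs

theorem frobInt : IfaceFrobInt := by
  intro A q hq hA σ
  constructor
  · rintro ⟨hσ, hres⟩ x hx
    have hxA : x ∈ A := mem_of_isIntegral A hx
    have h1 := hres (IsLocalRing.residue A ⟨x, hxA⟩)
    rw [← IsLocalRing.ResidueField.residue_smul, ← map_pow, ← sub_eq_zero, ← map_sub,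
      IsLocalRing.residue_eq_zero_iff, ← ValuationSubring.coe_mem_nonunits_iff] at h1
    exact h1
  · intro h2
    have hq0 : q ≠ 0 := hq.ne_zero
    have h1 : ∀ x, IsIntegral ℤ x → (σ x ∈ A.nonunits ↔ x ∈ A.nonunits) := by
      intro x hx
      constructor
      · intro h
        have := sub_mem_nonunits A h (h2 x hx)
        have e : σ x - (σ x - x ^ q) = x ^ q := by ring
        rw [e] at this
        exact mem_nonunits_of_pow_mem A this
      · intro h
        have := add_mem_nonunits A (h2 x hx) (pow_mem_nonunits A hq0 h)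
        simpa using this
    exact Fermat.Agent.S54.isFrobeniusAt_of_integral qb_isAlgebraic_int A hq hA σ h1 h2

end integers


/-! ### Translates of valuation subrings -/

section translate

variable (A : ValuationSubring Qb)

theorem mem_smul_iff (σ : GQ) (x : Qb) : x ∈ σ • A ↔ (σ⁻¹ : GQ) x ∈ A :=
  ValuationSubring.mem_pointwise_smul_iff_inv_smul_mem

theorem mem_nonunits_iff_inv {L : Type*} [Field L] (B : ValuationSubring L) (x : L) :
    x ∈ B.nonunits ↔ x = 0 ∨ x⁻¹ ∉ B := by
  rw [ValuationSubring.mem_nonunits_iff]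
  by_cases hx : x = 0
  · simp [hx]
  · simp only [hx, false_or]
    rw [← B.valuation_le_one_iff, map_inv₀, not_le]
    have hv : B.valuation x ≠ 0 := (Valuation.ne_zero_iff _).mpr hx
    rw [one_lt_inv₀ (zero_lt_iff.mpr hv)]

theorem mem_nonunits_smul_iff (σ : GQ) (x : Qb) :
    x ∈ (σ • A).nonunits ↔ (σ⁻¹ : GQ) x ∈ A.nonunits := by
  rw [mem_nonunits_iff_inv, mem_nonunits_iff_inv, mem_smul_iff, map_inv₀]
  simp

theorem primeUnderSmul : IfacePrimeUnderSmul := by
  intro E _ _ A σ
  ext x
  rw [mem_primeUnder, Ideal.mem_pointwise_smul_iff_inv_smul_mem, mem_primeUnder,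
    mem_nonunits_smul_iff]
  have e : (((((AlgEquiv.restrictNormalHom E σ)⁻¹ • x : 𝓞 E) : E)) : Qb) =
      (σ⁻¹ : GQ) (((x : E)) : Qb) := by
    rw [← map_inv]
    exact AlgEquiv.restrictNormal_commutes (σ⁻¹ : GQ) E (x : E)
  rw [e]

end translate

end Fermat.Agent.Bridge

end
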