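import Mathlib
import Fermat.Agent.Bridge.Interfaces
import Fermat.Agent.S54.Frobenius

/-!
# P-BRIDGE, module M5: Frobenius elements

* `existsFrob` (B5a): Frobenius elements exist at every valuation subring over a prime.
* `frobUnique` (B5b): two Frobenius elements differ by an element of the inertia group.
* `frobRestrict` (B5c): the restriction of a Frobenius element to a finite Galois `E` is an
  arithmetic Frobenius at the prime of `E` under `A`.
* `frobLift` (B5d): every arithmetic Frobenius lifts (uses `IfaceMapInertia`).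
-/

set_option autoImplicit false

open NumberField
open scoped Pointwise

noncomputable section

namespace Fermat.Agent.Bridge

/-- (B5a) Frobenius elements exist at every valuation subring over a prime. -/
theorem existsFrob : IfaceExistsFrob := fun A _ hq hA =>
  Fermat.Agent.S54.exists_isFrobeniusAt_of_liesOverPrime hq A hA

/-- Elementwise consequence of being a Frobenius element: `σ a ≡ a ^ q` modulo the maximal
ideal, for every `a ∈ A`. -/
theorem frob_sub_pow_mem_nonunits {A : ValuationSubring Qb} {q : ℕ} {σ : GQ}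
    (hσ : A.IsFrobeniusAt σ q) {a : Qb} (ha : a ∈ A) : σ a - a ^ q ∈ A.nonunits := by
  obtain ⟨hσD, hσx⟩ := hσ
  have h := hσx (IsLocalRing.residue A ⟨a, ha⟩)
  rw [← IsLocalRing.ResidueField.residue_smul, ← map_pow, ← sub_eq_zero, ← map_sub,
    IsLocalRing.residue_eq_zero_iff, ← ValuationSubring.coe_mem_nonunits_iff] at h
  exact h

/-- An element of the inertia group times a Frobenius element is a Frobenius element. -/
theorem isFrobeniusAt_mul_of_mem_inertia {A : ValuationSubring Qb} {q : ℕ} {ι σ : GQ}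
    (hι : ι ∈ A.inertiaSubgroupIn ℚ) (hσ : A.IsFrobeniusAt σ q) :
    A.IsFrobeniusAt (ι * σ) q := by
  obtain ⟨hσD, hσx⟩ := hσ
  obtain ⟨ι', hι', rfl⟩ := hι
  have hker : ∀ x : IsLocalRing.ResidueField A, ι' • x = x := by
    intro x
    have h : MulSemiringAction.toRingAut (A.decompositionSubgroup ℚ)
        (IsLocalRing.ResidueField A) ι' = 1 := hι'
    have h2 := congrArg (fun f => f x) h
    exact h2
  refine ⟨(A.decompositionSubgroup ℚ).mul_mem ι'.2 hσD, fun x => ?_⟩
  have e : (⟨(A.decompositionSubgroup ℚ).subtype ι' * σ,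
      (A.decompositionSubgroup ℚ).mul_mem ι'.2 hσD⟩ : A.decompositionSubgroup ℚ) =
      ι' * ⟨σ, hσD⟩ := rfl
  rw [e, mul_smul, hσx, hker]

/-- (B5b) two Frobenius elements at `A` differ by an element of the inertia group. -/
theorem frobUnique : IfaceFrobUnique := by
  intro A q σ τ hσ hτ
  obtain ⟨hσD, hσx⟩ := hσ
  obtain ⟨hτD, hτx⟩ := hτ
  refine ⟨(⟨σ, hσD⟩ : A.decompositionSubgroup ℚ)⁻¹ * ⟨τ, hτD⟩, ?_, rfl⟩
  show _ ∈ MonoidHom.ker _
  rw [MonoidHom.mem_ker]
  ext x
  show ((⟨σ, hσD⟩ : A.decompositionSubgroup ℚ)⁻¹ * ⟨τ, hτD⟩) • x = x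
  rw [mul_smul, hτx, ← hσx x, inv_smul_smul]

/-- The prime of `ℤ` under `primeUnder A E` is `(q)`. -/
theorem under_primeUnder_eq {A : ValuationSubring Qb} {q : ℕ} (hq : q.Prime)
    (hA : A.LiesOverPrime q) (E : IntermediateField ℚ Qb) :
    (primeUnder A E).under ℤ = Ideal.span {(q : ℤ)} := by
  have hmax : (Ideal.span {(q : ℤ)}).IsMaximal :=
    PrincipalIdealRing.isMaximal_of_irreducible (Nat.prime_iff_prime_int.mp hq).irreducible
  symm
  refine hmax.eq_of_le ?_ ?_
  · exact Ideal.comap_ne_top _ (Ideal.IsPrime.ne_top inferInstance)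
  · rw [Ideal.span_le, Set.singleton_subset_iff]
    show algebraMap ℤ (𝓞 E) (q : ℤ) ∈ primeUnder A E
    rw [mem_primeUnder]
    have hA' : (q : Qb) ∈ A.nonunits := hA
    simpa using hA'

/-- (B5c) the restriction of a Frobenius element at `A` to a finite Galois `E` is an arithmetic
Frobenius at the prime of `E` under `A`. -/
theorem frobRestrict : IfaceFrobRestrict := by
  intro E _ _ A q hq hA σ hσ x
  have hcard : Nat.card (ℤ ⧸ (primeUnder A E).under ℤ) = q := by
    rw [under_primeUnder_eq hq hA E, Nat.card_congr (Int.quotientSpanNatEquivZMod q).toEquiv,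
      Nat.card_zmod]
  rw [hcard, mem_primeUnder]
  have hx : (((x : E) : Qb)) ∈ A := mem_of_isIntegral A
    (by
      have h : IsIntegral ℤ (x : E) := x.2
      exact h.map (IsScalarTower.toAlgHom ℤ E Qb))
  have key := frob_sub_pow_mem_nonunits hσ hx
  have e1 : (((MulSemiringAction.toAlgHom ℤ (𝓞 E) (AlgEquiv.restrictNormalHom E σ) x : 𝓞 E) : E)
      : Qb) = σ (((x : E) : Qb)) := by
    have h1 : ((MulSemiringAction.toAlgHom ℤ (𝓞 E) (AlgEquiv.restrictNormalHom E σ) x : 𝓞 E) : E)
        = (AlgEquiv.restrictNormalHom E σ) (x : E) := by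
      rfl
    rw [h1]
    exact AlgEquiv.restrictNormal_commutes σ E (x : E)
  show ((((MulSemiringAction.toAlgHom ℤ (𝓞 E) (AlgEquiv.restrictNormalHom E σ) x - x ^ q : 𝓞 E)
      : E)) : Qb) ∈ A.nonunits
  have e2 : ((((MulSemiringAction.toAlgHom ℤ (𝓞 E) (AlgEquiv.restrictNormalHom E σ) x - x ^ q
      : 𝓞 E) : E)) : Qb) = σ (((x : E) : Qb)) - (((x : E) : Qb)) ^ q := by
    rw [← e1]
    push_cast
    rfl
  rw [e2]
  exact key

/-- (B5d) every arithmetic Frobenius of a finite Galois `E` at the prime under `A` is the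
restriction of a Frobenius element at `A`. -/
theorem frobLift (hI : IfaceMapInertia) : IfaceFrobLift := by
  intro E _ _ A q hq hA τ hτ
  obtain ⟨σ₀, hσ₀⟩ := existsFrob A q hq hA
  have h0 := frobRestrict E A q hq hA σ₀ hσ₀
  have hmem : τ * (AlgEquiv.restrictNormalHom E σ₀)⁻¹ ∈ (primeUnder A E).inertia (E ≃ₐ[ℚ] E) :=
    IsArithFrobAt.mul_inv_mem_inertia hτ h0
  rw [← hI E A] at hmem
  obtain ⟨ι, hι, hιE⟩ := hmem
  refine ⟨ι * σ₀, isFrobeniusAt_mul_of_mem_inertia hι hσ₀, ?_⟩
  rw [map_mul, hιE, inv_mul_cancel_right]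

end Fermat.Agent.Bridge

end
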