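import Mathlib
import Fermat.Agent.Bridge.Interfaces

/-!
# P-BRIDGE, module M4: unramifiedness and Minkowski

* `unramifiedIff_of` : (B3) from the restriction interface (B2b) and the existence interface (B1b).
* `minkowski_of` : (B4) from (B3), using Minkowski's discriminant bound from Mathlib.
* `minkowskiAction_of` : (B4') from (B4).
-/

set_option autoImplicit false

open NumberField
open scoped Pointwise

noncomputable section

namespace Fermat.Agent.Bridge

universe u

/-- A finite-dimensional subfield of `Qbar` is a number field. -/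
theorem numberField_of_finiteDimensional (E : IntermediateField ℚ Qb) [FiniteDimensional ℚ E] :
    NumberField E :=
  { to_charZero := inferInstance
    to_finiteDimensional := inferInstance }

/-- `A` lies over `q` iff `q` lies in the prime of `E` cut out by `A`. -/
theorem natCast_mem_primeUnder_iff (A : ValuationSubring Qb) (E : IntermediateField ℚ Qb)
    (q : ℕ) : (q : 𝓞 E) ∈ primeUnder A E ↔ A.LiesOverPrime q := by
  rw [mem_primeUnder]
  simp [ValuationSubring.LiesOverPrime]

/-- For a finite Galois `E/ℚ`, a prime of `𝓞 E` is unramified over `ℤ` iff its inertia group is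
trivial. -/
theorem isUnramifiedAt_iff_inertia_eq_bot (E : IntermediateField ℚ Qb) [FiniteDimensional ℚ E]
    [IsGalois ℚ E] (P : Ideal (𝓞 E)) [P.IsPrime] :
    Algebra.IsUnramifiedAt ℤ P ↔ P.inertia (E ≃ₐ[ℚ] E) = ⊥ := by
  have : NumberField E := numberField_of_finiteDimensional E
  rw [← Ideal.ramificationIdx_eq_one_iff,
    ← Ideal.ramificationIdxIn_eq_ramificationIdx (P.under ℤ) P Gal(E/ℚ),
    ← Ideal.card_inertia_eq_ramificationIdxIn (G := Gal(E/ℚ)) (P.under ℤ) P,
    Subgroup.card_eq_one]

/-- The kernel of restriction to a normal subfield `E` is the fixing subgroup of `E`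
(stated for the `ℚ`-algebra instance used in the interfaces). -/
theorem restrictNormalHom_eq_one_iff (E : IntermediateField ℚ Qb) [Normal ℚ E] (σ : GQ) :
    AlgEquiv.restrictNormalHom E σ = 1 ↔ σ ∈ E.fixingSubgroup := by
  rw [IntermediateField.mem_fixingSubgroup_iff]
  constructor
  · intro h x hx
    have h1 := AlgEquiv.restrictNormal_commutes σ E ⟨x, hx⟩
    have h2 : σ.restrictNormal E = 1 := h
    rw [h2] at h1
    exact h1.symm
  · intro h
    ext x
    have h1 := AlgEquiv.restrictNormal_commutes σ E x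
    have h2 : σ ((x : E) : Qb) = x := h x x.2
    change ((σ.restrictNormal E x : E) : Qb) = x
    exact h1.trans h2

/-- (B3) from (B2b) and (B1b). -/
theorem unramifiedIff_of (hMI : IfaceMapInertia) (hEO : IfaceExistsOver) :
    IfaceUnramifiedIff := by
  intro E _ _ q hq
  have : NumberField E := numberField_of_finiteDimensional E
  constructor
  · intro h P _ hqP
    have hP0 : P ≠ ⊥ := by
      rintro rfl
      have h0 : (q : 𝓞 E) = 0 := by simpa using hqP
      exact hq.ne_zero (by exact_mod_cast h0)
    obtain ⟨A, rfl⟩ := hEO E P hP0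
    have hA : A.LiesOverPrime q := (natCast_mem_primeUnder_iff A E q).mp hqP
    rw [isUnramifiedAt_iff_inertia_eq_bot, ← hMI E A, eq_bot_iff]
    rintro _ ⟨σ, hσ, rfl⟩
    exact Subgroup.mem_bot.mpr ((restrictNormalHom_eq_one_iff E σ).mpr (h A hA hσ))
  · intro h A hA σ hσ
    have hqP : (q : 𝓞 E) ∈ primeUnder A E := (natCast_mem_primeUnder_iff A E q).mpr hA
    have h1 := (isUnramifiedAt_iff_inertia_eq_bot E (primeUnder A E)).mp (h _ hqP)
    rw [← hMI E A] at h1
    have h2 : AlgEquiv.restrictNormalHom E σ ∈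
        (A.inertiaSubgroupIn ℚ).map (AlgEquiv.restrictNormalHom E) := ⟨σ, hσ, rfl⟩
    rw [h1, Subgroup.mem_bot] at h2
    exact (restrictNormalHom_eq_one_iff E σ).mp h2

/-- Transport `IsGalois` along the (unique) `ℚ`-algebra structure. -/
theorem isGalois_rat_of_isGalois {F : Type*} [Field F] (i₁ i₂ : Algebra ℚ F)
    (h : @IsGalois ℚ _ F _ i₁) : @IsGalois ℚ _ F _ i₂ := by
  have : i₁ = i₂ := Subsingleton.elim _ _
  subst this
  exact h

/-- Every prime number lies in some prime ideal of the ring of integers of a number field. -/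
theorem exists_prime_natCast_mem (F : Type*) [Field F] [NumberField F] (p : ℕ) (hp : p.Prime) :
    ∃ P : Ideal (𝓞 F), P.IsPrime ∧ (p : 𝓞 F) ∈ P := by
  have hpZ : Prime (p : ℤ) := Nat.prime_iff_prime_int.mp hp
  have : (Ideal.span {(p : ℤ)}).IsPrime :=
    (Ideal.span_singleton_prime hpZ.ne_zero).mpr hpZ
  obtain ⟨⟨P, hP1, hP2⟩⟩ :=
    (inferInstance : Nonempty ((Ideal.span {(p : ℤ)}).primesOver (𝓞 F)))
  refine ⟨P, hP1, ?_⟩
  have h1 : (p : ℤ) ∈ P.under ℤ := by
    rw [← hP2.over]
    exact Ideal.mem_span_singleton_self _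
  simpa [Ideal.mem_comap] using h1

/-- `Qbar / ℚ` is Galois (for the `ℚ`-algebra instance used in the interfaces). -/
theorem isGalois_rat_Qb : IsGalois ℚ Qb :=
  haveI : IsAlgClosure ℚ Qb := ⟨inferInstance, AlgebraicClosure.isAlgebraic ℚ⟩
  IsAlgClosure.isGalois ℚ Qb

/-- (B4) from (B3). -/
theorem minkowski_of (hU : IfaceUnramifiedIff) : IfaceMinkowski.{u} := by
  intro H _ ρ E hE hEρ hI σ
  have hQb : IsGalois ℚ Qb := isGalois_rat_Qb
  have hopen : IsOpen (ρ.ker : Set GQ) := Subgroup.isOpen_mono hEρ E.fixingSubgroup_isOpen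
  have hclosed : IsClosed (ρ.ker : Set GQ) := Subgroup.isClosed_of_isOpen _ hopen
  have hfix : (IntermediateField.fixedField ρ.ker).fixingSubgroup = ρ.ker :=
    InfiniteGalois.fixingSubgroup_fixedField ⟨ρ.ker, hclosed⟩
  have hle : IntermediateField.fixedField ρ.ker ≤ E := by
    rw [← InfiniteGalois.fixedField_fixingSubgroup E]
    exact IntermediateField.fixedField_antitone hEρ
  set E' : IntermediateField ℚ Qb := IntermediateField.fixedField ρ.ker with hE'
  have : FiniteDimensional ℚ E' := by
    let _ : Algebra E' E := RingHom.toAlgebra (IntermediateField.inclusion hle)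
    exact FiniteDimensional.left ℚ E' E
  have hnormal : E'.fixingSubgroup.Normal := by
    rw [hfix]; infer_instance
  have hgal0 : IsGalois ℚ E' := (InfiniteGalois.normal_iff_isGalois E').mp hnormal
  have hgal : IsGalois ℚ E' := isGalois_rat_of_isGalois _ _ hgal0
  have : NumberField E' := numberField_of_finiteDimensional E'
  have hrank : Module.finrank ℚ E' = 1 := by
    by_contra hne
    have h1 : 1 < Module.finrank ℚ E' :=
      lt_of_le_of_ne Module.finrank_pos (Ne.symm hne)
    obtain ⟨p, hp, hP⟩ :=
      NumberField.exists_not_isUnramifiedAt_int_of_isGalois (K := E') (𝒪 := 𝓞 E') h1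
    obtain ⟨P, hP1, hP2⟩ := exists_prime_natCast_mem E' p hp
    refine hP P hP1 hP2 ?_
    exact (hU E' p hp).mp (fun A hA => hfix ▸ hI p hp A hA) P hP2
  have hbot : E' = ⊥ := IntermediateField.finrank_eq_one_iff.mp hrank
  have hker : ρ.ker = ⊤ := by
    rw [← hfix, hbot, IntermediateField.fixingSubgroup_bot]
  have : σ ∈ ρ.ker := hker ▸ Subgroup.mem_top σ
  exact this

/-- (B4') from (B4). -/
theorem minkowskiAction_of (hM : IfaceMinkowski.{u}) : IfaceMinkowskiAction.{u} := by
  intro X _ _ hX hI σ x
  choose Ex hEx1 hEx2 using hX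
  have hfin : FiniteDimensional ℚ (⨆ x, Ex x : IntermediateField ℚ Qb) :=
    IntermediateField.finiteDimensional_iSup_of_finite
  have key := hM (MulAction.toPermHom GQ X) (⨆ x, Ex x) hfin
    (fun τ hτ => by
      rw [MonoidHom.mem_ker]
      ext y
      have : τ ∈ (Ex y).fixingSubgroup :=
        IntermediateField.fixingSubgroup_antitone (le_iSup Ex y) hτ
      simpa using hEx2 y τ this)
    (fun q hq A hA τ hτ => by
      rw [MonoidHom.mem_ker]
      ext y
      simpa using hI q hq A hA τ hτ y)
    σ
  have := congrArg (fun f : Equiv.Perm X => f x) key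
  simpa using this

end Fermat.Agent.Bridge

end
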