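import Mathlib
import Fermat.Agent.Bridge.Interfaces
import Fermat.Agent.S54.FrobProfinite

/-!
# P-BRIDGE, module M2: the profinite setup, existence and conjugacy of valuation subrings

* `existsOver : IfaceExistsOver` : every prime of the ring of integers of a subfield `E` of
  `Qbar` is cut out by a valuation subring of `Qbar` (`M2_exists_primeUnder_eq` is the general
  form: any subfield, any prime).
* `conj : IfaceConj` : two valuation subrings of `Qbar` cutting out the same prime of `𝓞 E` are
  conjugate under `Gal(Qbar/E)`.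

Auxiliary results: a valuation subring of `Qbar` is determined by the prime of the ring of all
algebraic integers which it cuts out (`M2_bigPrime_injective`), every element of a valuation
subring is a quotient of algebraic integers with denominator a unit (`M2_exists_integral_frac`),
and `Gal(Qbar/E)` acts transitively on the primes of the ring of all algebraic integers above a
given prime of `𝓞 E` (`M2_exists_smul_eq`).
-/

set_option autoImplicit false
set_option linter.style.haveILetI false

open NumberField Polynomial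
open scoped Pointwise

noncomputable section

namespace Fermat.Agent.Bridge

attribute [local instance] Fermat.Agent.S54.galActionIntegers

/-! ### Existence -/

/-- Existence of a valuation subring of `Qbar` cutting out a given prime of `𝓞 E`
(any subfield `E`, any prime, including `⊥`). -/
theorem M2_exists_primeUnder_eq (E : IntermediateField ℚ Qb) (P : Ideal (𝓞 E)) [P.IsPrime] :
    ∃ A : ValuationSubring Qb, primeUnder A E = P := by
  let f₀ : 𝓞 E →+* Qb := (algebraMap E Qb).comp (algebraMap (𝓞 E) E)
  have hf₀inj : Function.Injective f₀ :=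
    (algebraMap E Qb).injective.comp (FaithfulSMul.algebraMap_injective (𝓞 E) E)
  have hunits : ∀ s : P.primeCompl, IsUnit (f₀ s) := by
    intro s
    refine isUnit_iff_ne_zero.2 fun h => ?_
    have h0 : (s : 𝓞 E) = 0 := hf₀inj (by rw [h, map_zero])
    exact s.2 (h0 ▸ P.zero_mem)
  let f : Localization.AtPrime P →+* Qb := IsLocalization.lift hunits
  have hf : ∀ x : 𝓞 E, f (algebraMap (𝓞 E) (Localization.AtPrime P) x) = f₀ x :=
    fun x => IsLocalization.lift_eq hunits x
  obtain ⟨A, hA, hloc⟩ := IsLocalRing.exists_factor_valuationRing f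
  refine ⟨A, ?_⟩
  ext x
  rw [mem_primeUnder]
  have hx : (((x : E) : Qb)) = f (algebraMap (𝓞 E) (Localization.AtPrime P) x) := (hf x).symm
  constructor
  · intro hmem
    by_contra hxP
    have hu : IsUnit (algebraMap (𝓞 E) (Localization.AtPrime P) x) :=
      IsLocalization.map_units (Localization.AtPrime P) (⟨x, hxP⟩ : P.primeCompl)
    have hu2 : IsUnit ((f.codRestrict A.toSubring hA)
        (algebraMap (𝓞 E) (Localization.AtPrime P) x)) := hu.map _
    obtain ⟨ha, hmax⟩ := (ValuationSubring.mem_nonunits_iff_exists_mem_maximalIdeal).1 hmem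
    rw [IsLocalRing.mem_maximalIdeal, mem_nonunits_iff] at hmax
    apply hmax
    convert hu2 using 1
    exact Subtype.ext (hf x).symm
  · intro hxP
    rw [ValuationSubring.mem_nonunits_iff_exists_mem_maximalIdeal]
    have hxA : (((x : E) : Qb)) ∈ A := hx ▸ hA _
    refine ⟨hxA, ?_⟩
    rw [IsLocalRing.mem_maximalIdeal, mem_nonunits_iff]
    intro hu
    have hu2 : IsUnit ((f.codRestrict A.toSubring hA)
        (algebraMap (𝓞 E) (Localization.AtPrime P) x)) := by
      convert hu using 1
      exact Subtype.ext (hf x)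
    have hu3 : IsUnit (algebraMap (𝓞 E) (Localization.AtPrime P) x) := hloc.map_nonunit _ hu2
    have : x ∈ P.primeCompl := (IsLocalization.AtPrime.isUnit_to_map_iff
      (Localization.AtPrime P) P x).1 hu3
    exact this hxP

/-- (B1b) every nonzero prime of the ring of integers of a number field `E ⊆ Qbar` is cut out by
a valuation subring of `Qbar`. -/
theorem existsOver : IfaceExistsOver := fun E _ P _ _ => M2_exists_primeUnder_eq E P

/-! ### A valuation subring is determined by its centre on the algebraic integers -/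

/-- The integers which are non-units of a valuation subring form an ideal of `ℤ`. -/
def M2_intIdeal {L : Type*} [Field L] (A : ValuationSubring L) : Ideal ℤ :=
  (IsLocalRing.maximalIdeal A).comap (Int.castRingHom A)

theorem M2_mem_intIdeal {L : Type*} [Field L] (A : ValuationSubring L) (n : ℤ) :
    n ∈ M2_intIdeal A ↔ (n : L) ∈ A.nonunits := by
  rw [M2_intIdeal, Ideal.mem_comap, ← ValuationSubring.coe_mem_nonunits_iff]
  simp

/-- Every element of a valuation subring of a field algebraic over `ℤ` is a quotient of
integral elements with denominator a unit of the valuation subring. -/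
theorem M2_exists_integral_frac {L : Type*} [Field L] [CharZero L] (A : ValuationSubring L)
    {x : L} (hxalg : IsAlgebraic ℤ x) (hx : x ∈ A) :
    ∃ b s : L, IsIntegral ℤ b ∧ IsIntegral ℤ s ∧ s ∉ A.nonunits ∧ x * s = b := by
  obtain ⟨p, hp0, hpx⟩ := hxalg
  have hprim : p.primPart.IsPrimitive := Polynomial.isPrimitive_primPart p
  have hpx' : aeval x p.primPart = 0 := Polynomial.aeval_primPart_eq_zero hp0 hpx
  -- some coefficient of the primitive part is a unit of `A`
  have hex : ∃ i, ((p.primPart.coeff i : ℤ) : L) ∉ A.nonunits := by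
    by_contra hall
    push Not at hall
    obtain ⟨d, hd⟩ := (IsPrincipalIdealRing.principal (M2_intIdeal A)).principal
    have hdvd : C d ∣ p.primPart := by
      rw [Polynomial.C_dvd_iff_dvd_coeff]
      intro i
      have : p.primPart.coeff i ∈ M2_intIdeal A := (M2_mem_intIdeal A _).2 (hall i)
      rw [hd] at this
      exact Ideal.mem_span_singleton.1 this
    have hu : IsUnit d := Polynomial.isPrimitive_iff_isUnit_of_C_dvd.mp hprim _ hdvd
    have h1 : (1 : ℤ) ∈ M2_intIdeal A := by
      rw [hd]
      exact Ideal.mem_span_singleton.2 hu.dvd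
    have h2 := (M2_mem_intIdeal A 1).1 h1
    rw [ValuationSubring.mem_nonunits_iff] at h2
    simp at h2
  obtain ⟨i, hi⟩ := hex
  refine Fermat.Agent.S54.crux_aux A hx _
    (p.primPart.map (algebraMap ℤ (integralClosure ℤ L))) le_rfl ?_ ⟨i, ?_⟩
  · rw [Polynomial.aeval_map_algebraMap]
    exact hpx'
  · rw [Polynomial.coeff_map]
    have : ((algebraMap ℤ (integralClosure ℤ L) (p.primPart.coeff i) : integralClosure ℤ L) : L)
        = ((p.primPart.coeff i : ℤ) : L) := by
      simp
    rw [this]
    exact hi

/-- A valuation subring of `Qbar` is determined by the algebraic integers which are non-units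
in it: monotone form. -/
theorem M2_le_of_nonunits {A A' : ValuationSubring Qb}
    (h : ∀ s : Qb, IsIntegral ℤ s → s ∈ A'.nonunits → s ∈ A.nonunits) : A ≤ A' := by
  intro x hx
  obtain ⟨b, s, hb, hs, hsA, hxs⟩ :=
    M2_exists_integral_frac A (Fermat.Agent.S54.isAlgebraic_int_Qbar x) hx
  have hsA' : s ∉ A'.nonunits := fun h' => hsA (h s hs h')
  have hs0 : s ≠ 0 := by
    rintro rfl
    exact hsA A.nonunits.zero_mem
  have hsmem : s ∈ A' := mem_of_isIntegral A' hs
  have hbmem : b ∈ A' := mem_of_isIntegral A' hb
  -- `s` is a unit of `A'`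
  have hval : A'.valuation s = 1 := by
    have h1 : A'.valuation s ≤ 1 := (A'.valuation_le_one_iff s).2 hsmem
    rcases lt_or_eq_of_le h1 with h2 | h2
    · exact absurd ((ValuationSubring.mem_nonunits_iff (A := A')).2 h2) hsA'
    · exact h2
  have hx' : x = b * s⁻¹ := by
    rw [← hxs, mul_assoc, mul_inv_cancel₀ hs0, mul_one]
  rw [hx', ← A'.valuation_le_one_iff, map_mul, map_inv₀, hval, inv_one, mul_one]
  exact (A'.valuation_le_one_iff b).2 hbmem

/-- A valuation subring of `Qbar` is determined by the algebraic integers which are non-units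
in it. -/
theorem M2_eq_of_nonunits {A A' : ValuationSubring Qb}
    (h : ∀ s : Qb, IsIntegral ℤ s → (s ∈ A.nonunits ↔ s ∈ A'.nonunits)) : A = A' :=
  le_antisymm (M2_le_of_nonunits fun s hs h' => (h s hs).2 h')
    (M2_le_of_nonunits fun s hs h' => (h s hs).1 h')

/-- A valuation subring of `Qbar` is determined by the prime of the ring of all algebraic
integers which it cuts out. -/
theorem M2_bigPrime_injective {A A' : ValuationSubring Qb} (h : bigPrime A = bigPrime A') :
    A = A' := by
  apply M2_eq_of_nonunits
  intro s hs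
  have h1 := mem_bigPrime (A := A) (x := ⟨s, hs⟩)
  have h2 := mem_bigPrime (A := A') (x := ⟨s, hs⟩)
  rw [← h1, ← h2, h]

/-- Non-units of a translate of a valuation subring. -/
theorem M2_mem_nonunits_smul (σ : GQ) (A : ValuationSubring Qb) (x : Qb) :
    x ∈ (σ • A).nonunits ↔ σ⁻¹ x ∈ A.nonunits := by
  rw [ValuationSubring.mem_nonunits_iff_or, ValuationSubring.mem_nonunits_iff_or,
    ValuationSubring.mem_pointwise_smul_iff_inv_smul_mem, AlgEquiv.smul_def, map_inv₀]
  simp

/-- The prime of the ring of all algebraic integers cut out by a translate. -/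
theorem M2_bigPrime_smul (σ : GQ) (A : ValuationSubring Qb) :
    bigPrime (σ • A) = σ • bigPrime A := by
  ext x
  rw [Ideal.mem_pointwise_smul_iff_inv_smul_mem, mem_bigPrime, mem_bigPrime,
    M2_mem_nonunits_smul]
  rfl

/-! ### The profinite setup and conjugacy -/

/-- The inclusion of the ring of integers of a subfield of `Qbar` into the ring of all algebraic
integers. -/
def ooToZb (E : IntermediateField ℚ Qb) : 𝓞 E →+* Zb where
  toFun x := ⟨((x : E) : Qb), by
      have h : IsIntegral ℤ (x : E) := x.2
      exact h.map (IsScalarTower.toAlgHom ℤ E Qb)⟩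
  map_one' := by ext; simp
  map_mul' _ _ := by ext; simp
  map_zero' := by ext; simp
  map_add' _ _ := by ext; simp

@[simp] theorem ooToZb_coe (E : IntermediateField ℚ Qb) (x : 𝓞 E) :
    ((ooToZb E x : Zb) : Qb) = ((x : E) : Qb) := rfl

theorem M2_comap_bigPrime (E : IntermediateField ℚ Qb) (A : ValuationSubring Qb) :
    (bigPrime A).comap (ooToZb E) = primeUnder A E := by
  ext x
  rw [Ideal.mem_comap, mem_bigPrime, mem_primeUnder, ooToZb_coe]

/-- The profinite group `Gal(Qbar/E)` acts transitively on the primes of the ring of all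
algebraic integers above a given prime of `𝓞 E`. -/
theorem M2_exists_smul_eq (E : IntermediateField ℚ Qb) (Q Q' : Ideal Zb) [Q.IsPrime]
    [Q'.IsPrime] (h : Q.comap (ooToZb E) = Q'.comap (ooToZb E)) :
    ∃ σ : GQ, σ ∈ E.fixingSubgroup ∧ Q' = σ • Q := by
  letI : TopologicalSpace Zb := ⊥
  haveI : DiscreteTopology Zb := ⟨rfl⟩
  haveI := Fermat.Agent.S54.isGalois_Qbar
  haveI := Fermat.Agent.S54.compactSpace_GalQbar
  haveI := Fermat.Agent.S54.totallyDisconnectedSpace_GalQbar
  haveI : CompactSpace E.fixingSubgroup :=
    isCompact_iff_compactSpace.mp (InfiniteGalois.fixingSubgroup_isClosed E).isCompact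
  haveI : TotallyDisconnectedSpace E.fixingSubgroup := Subtype.totallyDisconnectedSpace
  letI : Algebra (𝓞 E) Zb := (ooToZb E).toAlgebra
  haveI : SMulCommClass E.fixingSubgroup (𝓞 E) Zb := by
    refine ⟨fun g a b => Subtype.ext ?_⟩
    show (g : GQ) ((ooToZb E a : Zb) * b : Zb) = ((ooToZb E a : Zb) : Qb) * (g : GQ) (b : Qb)
    have hfix : (g : GQ) (((a : E) : Qb)) = ((a : E) : Qb) := g.2 ⟨((a : E) : Qb), (a : E).2⟩
    simp [hfix]
  haveI : ContinuousSMul E.fixingSubgroup Zb := by
    refine ⟨continuous_prod_of_discrete_right.mpr fun b => ?_⟩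
    exact (Fermat.Agent.S54.continuous_smul_integers b).comp continuous_subtype_val
  haveI : Algebra.IsInvariant (𝓞 E) Zb E.fixingSubgroup := by
    refine ⟨fun b hb => ?_⟩
    have hfix : ∀ σ ∈ E.fixingSubgroup, σ (b : Qb) = b := fun σ hσ =>
      congrArg Subtype.val (hb ⟨σ, hσ⟩)
    have hmem : (b : Qb) ∈ IntermediateField.fixedField E.fixingSubgroup := fun σ => hfix σ.1 σ.2
    rw [InfiniteGalois.fixedField_fixingSubgroup] at hmem
    have hint : IsIntegral ℤ (⟨(b : Qb), hmem⟩ : E) := by
      have h1 : IsIntegral ℤ (algebraMap E Qb ⟨(b : Qb), hmem⟩) := b.2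
      exact (isIntegral_algebraMap_iff (algebraMap E Qb).injective).mp h1
    exact ⟨⟨⟨(b : Qb), hmem⟩, hint⟩, Subtype.ext rfl⟩
  obtain ⟨g, hg⟩ := Algebra.IsInvariant.exists_smul_of_under_eq_of_profinite
    (A := 𝓞 E) (G := E.fixingSubgroup) Q Q' h
  exact ⟨g.1, g.2, hg⟩

/-- (B1c) two valuation subrings cutting out the same prime of `E` are conjugate under
`Gal(Qbar/E)`. -/
theorem conj : IfaceConj := by
  intro E A A' h
  have h' : (bigPrime A).comap (ooToZb E) = (bigPrime A').comap (ooToZb E) := by
    rw [M2_comap_bigPrime, M2_comap_bigPrime, h]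
  obtain ⟨σ, hσ, hQ⟩ := M2_exists_smul_eq E (bigPrime A) (bigPrime A') h'
  refine ⟨σ, hσ, M2_bigPrime_injective ?_⟩
  rw [M2_bigPrime_smul, hQ]

end Fermat.Agent.Bridge

end
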