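import Mathlib
import Fermat.Agent.Bridge.Interfaces

/-!
# P-BRIDGE: additional frozen interface statements (module M2 exports)
-/

set_option autoImplicit false

open NumberField
open scoped Pointwise

noncomputable section

namespace Fermat.Agent.Bridge

/-- (M2c) residue lifting: an element `σ` of the decomposition group of `A` which acts trivially
on the residue field of the prime of `E` under `A` agrees, modulo the maximal ideal of `A`, on
all algebraic integers with an element `h` of the decomposition group fixing `E` pointwise. -/
def IfaceResLift : Prop :=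
  ∀ (E : IntermediateField ℚ Qb) [FiniteDimensional ℚ E] (A : ValuationSubring Qb) (σ : GQ),
    σ ∈ A.decompositionSubgroup ℚ →
    (∀ x : 𝓞 E, σ ((x : E) : Qb) - ((x : E) : Qb) ∈ A.nonunits) →
    ∃ h : GQ, h ∈ E.fixingSubgroup ∧ h ∈ A.decompositionSubgroup ℚ ∧
      ∀ x : Qb, IsIntegral ℤ x → h x - σ x ∈ A.nonunits

end Fermat.Agent.Bridge

end
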