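import Mathlib
import Fermat.Agent.Bridge.Interfaces2
import Fermat.Agent.Bridge.Dict

/-!
# P-BRIDGE, module M3: restriction of decomposition and inertia groups to a finite Galois
subextension

From conjugacy of the valuation subrings above a prime (`IfaceConj`) and residue lifting
(`IfaceResLift`) we deduce that restriction to a finite Galois extension `E/ℚ` maps the
decomposition (inertia) group of a valuation subring `A` of `Qbar` onto the decomposition
(inertia) group of the prime of `E` under `A`.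
-/

set_option autoImplicit false

open NumberField
open scoped Pointwise

noncomputable section

namespace Fermat.Agent.Bridge

theorem qb_isGalois : IsGalois ℚ Qb :=
  haveI : IsAlgClosure ℚ Qb := ⟨inferInstance, AlgebraicClosure.isAlgebraic ℚ⟩
  IsAlgClosure.isGalois ℚ Qb

theorem qb_normal : Normal ℚ Qb :=
  haveI := qb_isGalois
  inferInstance

theorem coe_restrict_smul (E : IntermediateField ℚ Qb) [FiniteDimensional ℚ E] [IsGalois ℚ E]
    (σ : GQ) (x : 𝓞 E) :
    ((((AlgEquiv.restrictNormalHom E σ) • x : 𝓞 E) : E) : Qb) = σ (((x : E)) : Qb) :=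
  AlgEquiv.restrictNormal_commutes σ E (x : E)

theorem coe_restrict_smul' (E : IntermediateField ℚ Qb) [FiniteDimensional ℚ E] [IsGalois ℚ E]
    (σ : GQ) (x : E) :
    (((AlgEquiv.restrictNormalHom E σ) • x : E) : Qb) = σ (x : Qb) :=
  AlgEquiv.restrictNormal_commutes σ E x

theorem coe_restrict_smul_sub (E : IntermediateField ℚ Qb) [FiniteDimensional ℚ E]
    [IsGalois ℚ E] (σ : GQ) (x : 𝓞 E) :
    ((((AlgEquiv.restrictNormalHom E σ) • x - x : 𝓞 E) : E) : Qb) =
      σ (((x : E)) : Qb) - (((x : E)) : Qb) := by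
  rw [← coe_restrict_smul E σ x]
  push_cast
  rfl

theorem restrict_eq_one_of_mem_fixingSubgroup (E : IntermediateField ℚ Qb)
    [FiniteDimensional ℚ E] [IsGalois ℚ E] {g : GQ} (hg : g ∈ E.fixingSubgroup) :
    AlgEquiv.restrictNormalHom E g = 1 := by
  apply AlgEquiv.ext
  intro x
  apply Subtype.ext
  have h1 : ((AlgEquiv.restrictNormalHom E g x : E) : Qb) = g (x : Qb) :=
    AlgEquiv.restrictNormal_commutes g E x
  rw [h1]
  exact (IntermediateField.mem_fixingSubgroup_iff E g).mp hg x x.2

theorem mem_nonunits_of_mem_decomp {A : ValuationSubring Qb} {σ : GQ}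
    (hσ : σ ∈ A.decompositionSubgroup ℚ) {x : Qb} :
    σ x ∈ A.nonunits ↔ x ∈ A.nonunits := by
  have h1 : σ • A = A := MulAction.mem_stabilizer_iff.mp hσ
  have h2 := mem_nonunits_smul_iff A σ (σ x)
  rw [h1] at h2
  have e : (σ⁻¹ : GQ) (σ x) = x := σ.symm_apply_apply x
  rwa [e] at h2

theorem mapDecomp_of (hconj : IfaceConj) : IfaceMapDecomp := by
  intro E _ _ A
  ext τ
  rw [Subgroup.mem_map, MulAction.mem_stabilizer_iff]
  constructor
  · rintro ⟨σ, hσ, rfl⟩
    rw [← primeUnderSmul E A σ, MulAction.mem_stabilizer_iff.mp hσ]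
  · intro hτ
    have := qb_normal
    obtain ⟨σ₀, rfl⟩ := AlgEquiv.restrictNormalHom_surjective (F := ℚ) (K₁ := E) Qb τ
    have h1 : primeUnder (σ₀ • A) E = primeUnder A E := by
      rw [primeUnderSmul E A σ₀, hτ]
    obtain ⟨g, hg, hgA⟩ := hconj E (σ₀ • A) A h1
    refine ⟨g * σ₀, ?_, ?_⟩
    · rw [MulAction.mem_stabilizer_iff, mul_smul, hgA]
    · rw [map_mul, restrict_eq_one_of_mem_fixingSubgroup E hg, one_mul]

theorem mapInertia_of (hconj : IfaceConj) (hres : IfaceResLift) : IfaceMapInertia := by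
  intro E _ _ A
  ext τ
  rw [Subgroup.mem_map]
  constructor
  · rintro ⟨σ, hσ, rfl⟩
    intro x
    show (AlgEquiv.restrictNormalHom E σ) • x - x ∈ primeUnder A E
    rw [mem_primeUnder]
    have h1 := ((memInertia A σ).mp hσ).2 (((x : E)) : Qb)
      (mem_of_isIntegral A (by
        have h : IsIntegral ℤ (x : E) := x.2
        exact h.map (IsScalarTower.toAlgHom ℤ E Qb)))
    rw [coe_restrict_smul_sub]
    exact h1
  · intro hτ
    have hτ' : ∀ x : 𝓞 E, τ • x - x ∈ primeUnder A E := hτ
    have hstab : τ ∈ MulAction.stabilizer (E ≃ₐ[ℚ] E) (primeUnder A E) := by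
      rw [MulAction.mem_stabilizer_iff]
      have hle : ∀ (ρ : E ≃ₐ[ℚ] E), (∀ x : 𝓞 E, ρ • x - x ∈ primeUnder A E) →
          ρ • primeUnder A E ≤ primeUnder A E := by
        intro ρ hρ y hy
        rw [Ideal.mem_pointwise_smul_iff_inv_smul_mem] at hy
        have h2 := hρ (ρ⁻¹ • y)
        rw [smul_inv_smul] at h2
        simpa using (primeUnder A E).add_mem h2 hy
      apply le_antisymm (hle τ hτ')
      have hinv : ∀ x : 𝓞 E, τ⁻¹ • x - x ∈ primeUnder A E := by
        intro x
        have h2 := hτ' (τ⁻¹ • x)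
        rw [smul_inv_smul] at h2
        have := neg_mem h2
        simpa using this
      have h3 := hle τ⁻¹ hinv
      intro y hy
      rw [Ideal.mem_pointwise_smul_iff_inv_smul_mem]
      exact h3 (Ideal.smul_mem_pointwise_smul _ _ _ hy)
    rw [← mapDecomp_of hconj E A, Subgroup.mem_map] at hstab
    obtain ⟨σ, hσ, rfl⟩ := hstab
    have htriv : ∀ x : 𝓞 E, σ ((x : E) : Qb) - ((x : E) : Qb) ∈ A.nonunits := by
      intro x
      have h1 := hτ' x
      rw [mem_primeUnder] at h1
      rwa [coe_restrict_smul_sub] at h1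
    obtain ⟨h, hhE, hhA, hh⟩ := hres E A σ hσ htriv
    refine ⟨h⁻¹ * σ, ?_, ?_⟩
    · rw [memInertiaInt A (h⁻¹ * σ)]
      intro x hx
      have h1 := hh x hx
      have h2 : (h⁻¹ : GQ) (σ x - h x) ∈ A.nonunits := by
        have hinv : h⁻¹ ∈ A.decompositionSubgroup ℚ := inv_mem hhA
        rw [mem_nonunits_of_mem_decomp hinv]
        have := neg_mem_nonunits A h1
        simpa using this
      have e : (h⁻¹ * σ) x - x = (h⁻¹ : GQ) (σ x - h x) := by
        rw [map_sub]
        have : (h⁻¹ : GQ) (h x) = x := h.symm_apply_apply x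
        rw [this]
        rfl
      rw [e]
      exact h2
    · rw [map_mul, map_inv, restrict_eq_one_of_mem_fixingSubgroup E hhE, inv_one, one_mul]

end Fermat.Agent.Bridge

end
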