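import Mathlib
import Fermat.Agent.Bridge.Dict
import Fermat.Agent.Bridge.Restrict
import Fermat.Agent.Bridge.Profinite
import Fermat.Agent.Bridge.Minkowski
import Fermat.Agent.Bridge.Frobenius

/-!
# P-BRIDGE: assembled dictionary (everything except the residue lifting `IfaceResLift`)

This file assembles the modules M1 - M5.  The only remaining input is `IfaceResLift`
(module M2c); every theorem below whose name ends in `_of_resLift` takes it as a hypothesis,
all other theorems are unconditional.

* `exists_smul_eq_of_liesOverPrime` : all valuation subrings of `Qbar` over a prime number `q`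
  are conjugate under `Gal(Qbar/ℚ)`.
* `mem_inertiaSubgroupIn_smul_iff`, `mem_decompositionSubgroup_smul_iff` : inertia and
  decomposition groups of a translate.
* `mapDecomp : IfaceMapDecomp`.
* `minkowski_normal_of_resLift` : Minkowski's theorem in the shape "a normal open subgroup
  containing one inertia group above every prime is everything".
-/

set_option autoImplicit false
set_option linter.style.haveILetI false

open NumberField
open scoped Pointwise

noncomputable section

namespace Fermat.Agent.Bridge

universe u

attribute [local instance] Fermat.Agent.S54.galActionIntegers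

/-! ### Conjugacy over a prime number -/

/-- The integers which are non-units of a valuation subring over `q` are the multiples of `q`. -/
theorem intIdeal_eq_span {q : ℕ} (hq : q.Prime) {A : ValuationSubring Qb}
    (hA : A.LiesOverPrime q) : M2_intIdeal A = Ideal.span {(q : ℤ)} := by
  have hmax : (Ideal.span {(q : ℤ)}).IsMaximal :=
    PrincipalIdealRing.isMaximal_of_irreducible (Nat.prime_iff_prime_int.mp hq).irreducible
  refine (hmax.eq_of_le ?_ ?_).symm
  · exact Ideal.comap_ne_top _ (IsLocalRing.maximalIdeal.isMaximal A).ne_top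
  · rw [Ideal.span_singleton_le_iff_mem, M2_mem_intIdeal]
    have h : (q : Qb) ∈ A.nonunits := hA
    simpa using h

/-- The prime of `ℤ` under the prime of the ring of all algebraic integers cut out by `A`. -/
theorem under_bigPrime (A : ValuationSubring Qb) : (bigPrime A).under ℤ = M2_intIdeal A := by
  ext n
  rw [Ideal.under_def, Ideal.mem_comap, mem_bigPrime, M2_mem_intIdeal]
  simp

/-- All valuation subrings of `Qbar` over the same prime number are conjugate under the absolute
Galois group. -/
theorem exists_smul_eq_of_liesOverPrime {q : ℕ} (hq : q.Prime) {A A' : ValuationSubring Qb}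
    (hA : A.LiesOverPrime q) (hA' : A'.LiesOverPrime q) : ∃ σ : GQ, σ • A = A' := by
  letI : TopologicalSpace Zb := ⊥
  haveI : DiscreteTopology Zb := ⟨rfl⟩
  haveI := Fermat.Agent.S54.compactSpace_GalQbar
  haveI := Fermat.Agent.S54.totallyDisconnectedSpace_GalQbar
  haveI : ContinuousSMul GQ Zb :=
    ⟨continuous_prod_of_discrete_right.mpr Fermat.Agent.S54.continuous_smul_integers⟩
  haveI := Fermat.Agent.S54.isInvariant_integers
  have h : (bigPrime A).under ℤ = (bigPrime A').under ℤ := by
    rw [under_bigPrime, under_bigPrime, intIdeal_eq_span hq hA, intIdeal_eq_span hq hA']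
  obtain ⟨g, hg⟩ := Algebra.IsInvariant.exists_smul_of_under_eq_of_profinite
    (A := ℤ) (G := GQ) (bigPrime A) (bigPrime A') h
  refine ⟨g, M2_bigPrime_injective ?_⟩
  rw [M2_bigPrime_smul, hg]

/-! ### Decomposition and inertia groups of a translate -/

/-- The inertia group of a translate `σ • A` is the conjugate of the inertia group of `A`. -/
theorem mem_inertiaSubgroupIn_smul_iff (σ τ : GQ) (A : ValuationSubring Qb) :
    τ ∈ (σ • A).inertiaSubgroupIn ℚ ↔ σ⁻¹ * τ * σ ∈ A.inertiaSubgroupIn ℚ := by
  rw [memInertiaInt, memInertiaInt]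
  constructor
  · intro h x hx
    have h1 := h (σ x) (map_isIntegral_int σ hx)
    rw [M2_mem_nonunits_smul] at h1
    have h2 : σ⁻¹ (τ (σ x) - σ x) = (σ⁻¹ * τ * σ) x - x := by
      rw [map_sub]
      simp [AlgEquiv.mul_apply]
    rwa [h2] at h1
  · intro h x hx
    have h1 := h (σ⁻¹ x) (map_isIntegral_int σ⁻¹ hx)
    rw [M2_mem_nonunits_smul]
    have h2 : (σ⁻¹ * τ * σ) (σ⁻¹ x) - σ⁻¹ x = σ⁻¹ (τ x - x) := by
      rw [map_sub]
      simp [AlgEquiv.mul_apply]
    rwa [h2] at h1

/-- The decomposition group of a translate `σ • A` is the conjugate of the decomposition group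
of `A`. -/
theorem mem_decompositionSubgroup_smul_iff (σ τ : GQ) (A : ValuationSubring Qb) :
    τ ∈ (σ • A).decompositionSubgroup ℚ ↔ σ⁻¹ * τ * σ ∈ A.decompositionSubgroup ℚ := by
  show τ • (σ • A) = σ • A ↔ (σ⁻¹ * τ * σ) • A = A
  rw [mul_smul, mul_smul, inv_smul_eq_iff]

/-- A normal subgroup containing the inertia group of one valuation subring over `q` contains
the inertia groups of all valuation subrings over `q`. -/
theorem inertia_le_of_normal {q : ℕ} (hq : q.Prime) (H : Subgroup GQ) [H.Normal]
    {A A' : ValuationSubring Qb} (hA : A.LiesOverPrime q) (hA' : A'.LiesOverPrime q)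
    (h : A.inertiaSubgroupIn ℚ ≤ H) : A'.inertiaSubgroupIn ℚ ≤ H := by
  obtain ⟨σ, rfl⟩ := exists_smul_eq_of_liesOverPrime hq hA hA'
  intro τ hτ
  rw [mem_inertiaSubgroupIn_smul_iff] at hτ
  have h1 : σ⁻¹ * τ * σ ∈ H := h hτ
  have h2 := (inferInstance : H.Normal).conj_mem _ h1 σ
  simpa [mul_assoc] using h2

/-! ### Unconditional consequences -/

/-- (B2a) restriction maps the decomposition group of `A` onto the decomposition group of the
prime of `E` under `A`. -/
theorem mapDecomp : IfaceMapDecomp := mapDecomp_of conj

/-! ### Consequences of the residue lifting -/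

/-- (B2b) from the residue lifting. -/
theorem mapInertia_of_resLift (hres : IfaceResLift) : IfaceMapInertia :=
  mapInertia_of conj hres

/-- (B3) from the residue lifting. -/
theorem unramifiedIff_of_resLift (hres : IfaceResLift) : IfaceUnramifiedIff :=
  unramifiedIff_of (mapInertia_of_resLift hres) existsOver

/-- (B4) from the residue lifting. -/
theorem minkowski_of_resLift (hres : IfaceResLift) : IfaceMinkowski.{u} :=
  minkowski_of (unramifiedIff_of_resLift hres)

/-- (B4') from the residue lifting. -/
theorem minkowskiAction_of_resLift (hres : IfaceResLift) : IfaceMinkowskiAction.{u} :=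
  minkowskiAction_of (minkowski_of_resLift hres)

/-- (B5d) from the residue lifting. -/
theorem frobLift_of_resLift (hres : IfaceResLift) : IfaceFrobLift :=
  frobLift (mapInertia_of_resLift hres)

/-- The subfield generated by a finite set of elements of `Qbar` is finite-dimensional. -/
theorem finiteDimensional_adjoin_finset (S : Finset Qb) :
    FiniteDimensional ℚ (IntermediateField.adjoin ℚ (S : Set Qb)) :=
  IntermediateField.finiteDimensional_adjoin fun x _ =>
    (Fermat.Agent.S54.isAlgebraic_Qbar.isAlgebraic x).isIntegral

/-- An automorphism fixing the subfield generated by `S` pointwise fixes `S` pointwise. -/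
theorem apply_eq_of_mem_fixingSubgroup_adjoin (S : Finset Qb) {σ : GQ}
    (hσ : σ ∈ (IntermediateField.adjoin ℚ (S : Set Qb)).fixingSubgroup) {a : Qb} (ha : a ∈ S) :
    σ a = a :=
  (IntermediateField.mem_fixingSubgroup_iff _ σ).mp hσ a
    (IntermediateField.subset_adjoin ℚ _ (Finset.mem_coe.mpr ha))

/-- MINKOWSKI, subgroup form: a normal subgroup of `Gal(Qbar/ℚ)` which contains the pointwise
stabiliser of a finite set and, for every prime number `q`, the inertia group of *some*
valuation subring over `q`, is the whole group. -/
theorem minkowski_normal_of_resLift (hres : IfaceResLift) (H : Subgroup GQ) (hH : H.Normal)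
    (hopen : ∃ S : Finset Qb, ∀ σ : GQ, (∀ a ∈ S, σ a = a) → σ ∈ H)
    (hI : ∀ q : ℕ, q.Prime → ∃ A : ValuationSubring Qb, A.LiesOverPrime q ∧
      A.inertiaSubgroupIn ℚ ≤ H) : H = ⊤ := by
  obtain ⟨S, hS⟩ := hopen
  have hker : (QuotientGroup.mk' H).ker = H := QuotientGroup.ker_mk' H
  have key := minkowski_of_resLift.{0} hres (QuotientGroup.mk' H)
    (IntermediateField.adjoin ℚ (S : Set Qb)) (finiteDimensional_adjoin_finset S)
    (fun σ hσ => by
      rw [hker]
      exact hS σ fun a ha => apply_eq_of_mem_fixingSubgroup_adjoin S hσ ha)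
    (fun q hq A' hA' => by
      rw [hker]
      obtain ⟨A, hA, hAH⟩ := hI q hq
      exact inertia_le_of_normal hq H hA hA' hAH)
  rw [eq_top_iff]
  intro σ _
  have h1 : σ ∈ (QuotientGroup.mk' H).ker := MonoidHom.mem_ker.mpr (key σ)
  rwa [hker] at h1

end Fermat.Agent.Bridge

end
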