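import Mathlib
import Fermat.Agent.Bridge.Minkowski

/-!
# P-BRIDGE, module M4 (continued): Minkowski with one place per prime

`minkowski_one_of` : an open normal subgroup `H` of `Gal(Qbar/ℚ)` which contains, for every prime
number `q`, the inertia group of *some* valuation subring over `q`, is everything.  Only the
restriction interface (B2b) is used: Mathlib's form of Minkowski's theorem provides a prime number
all of whose primes in a given nontrivial finite Galois extension are ramified.

`minkowski_subgroup_of` : the same with the hypothesis on *all* valuation subrings.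
-/

set_option autoImplicit false

open NumberField
open scoped Pointwise

noncomputable section

namespace Fermat.Agent.Bridge

/-- The fixed field of an open normal subgroup `H` of `Gal(Qbar/ℚ)` is a finite Galois extension
of `ℚ` with fixing subgroup `H`. -/
theorem fixedField_of_open_normal (H : Subgroup GQ) (hH : H.Normal)
    (E : IntermediateField ℚ Qb) (hE : FiniteDimensional ℚ E) (hEH : E.fixingSubgroup ≤ H) :
    (IntermediateField.fixedField H).fixingSubgroup = H ∧
      FiniteDimensional ℚ (IntermediateField.fixedField H) ∧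
      IsGalois ℚ (IntermediateField.fixedField H) := by
  have hQb : IsGalois ℚ Qb := isGalois_rat_Qb
  have hopen : IsOpen (H : Set GQ) := Subgroup.isOpen_mono hEH E.fixingSubgroup_isOpen
  have hclosed : IsClosed (H : Set GQ) := Subgroup.isClosed_of_isOpen _ hopen
  have hfix : (IntermediateField.fixedField H).fixingSubgroup = H :=
    InfiniteGalois.fixingSubgroup_fixedField ⟨H, hclosed⟩
  have hle : IntermediateField.fixedField H ≤ E := by
    rw [← InfiniteGalois.fixedField_fixingSubgroup E]
    exact IntermediateField.fixedField_antitone hEH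
  have hfin : FiniteDimensional ℚ (IntermediateField.fixedField H) := by
    let _ : Algebra (IntermediateField.fixedField H) E :=
      RingHom.toAlgebra (IntermediateField.inclusion hle)
    exact FiniteDimensional.left ℚ (IntermediateField.fixedField H) E
  have hnormal : (IntermediateField.fixedField H).fixingSubgroup.Normal := by
    rw [hfix]; exact hH
  have hgal0 : IsGalois ℚ (IntermediateField.fixedField H) :=
    (InfiniteGalois.normal_iff_isGalois _).mp hnormal
  exact ⟨hfix, hfin, isGalois_rat_of_isGalois _ _ hgal0⟩

/-- MINKOWSKI, one place per prime: an open normal subgroup of `Gal(Qbar/ℚ)` containing, for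
every prime number, the inertia group of some valuation subring over it, is everything. -/
theorem minkowski_one_of (hMI : IfaceMapInertia) (H : Subgroup GQ) (hH : H.Normal)
    (E : IntermediateField ℚ Qb) (hE : FiniteDimensional ℚ E) (hEH : E.fixingSubgroup ≤ H)
    (hI : ∀ q : ℕ, q.Prime → ∃ A : ValuationSubring Qb,
      A.LiesOverPrime q ∧ A.inertiaSubgroupIn ℚ ≤ H) :
    H = ⊤ := by
  obtain ⟨hfix, hfin, hgal⟩ := fixedField_of_open_normal H hH E hE hEH
  set E' : IntermediateField ℚ Qb := IntermediateField.fixedField H with hE'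
  have : NumberField E' := numberField_of_finiteDimensional E'
  have hrank : Module.finrank ℚ E' = 1 := by
    by_contra hne
    have h1 : 1 < Module.finrank ℚ E' :=
      lt_of_le_of_ne Module.finrank_pos (Ne.symm hne)
    obtain ⟨p, hp, hP⟩ :=
      NumberField.exists_not_isUnramifiedAt_int_of_isGalois (K := E') (𝒪 := 𝓞 E') h1
    obtain ⟨A, hA, hAH⟩ := hI p hp
    refine hP (primeUnder A E') inferInstance ((natCast_mem_primeUnder_iff A E' p).mpr hA) ?_
    rw [isUnramifiedAt_iff_inertia_eq_bot, ← hMI E' A, eq_bot_iff]
    rintro _ ⟨σ, hσ, rfl⟩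
    exact Subgroup.mem_bot.mpr ((restrictNormalHom_eq_one_iff E' σ).mpr (hfix ▸ hAH hσ))
  have hbot : E' = ⊥ := IntermediateField.finrank_eq_one_iff.mp hrank
  rw [← hfix, hbot, IntermediateField.fixingSubgroup_bot]

/-- MINKOWSKI, one place per prime, openness expressed by a finite set of elements of `Qbar`
whose pointwise stabiliser lies in `H`. -/
theorem minkowski_one_finset_of (hMI : IfaceMapInertia) (H : Subgroup GQ) (hH : H.Normal)
    (hS : ∃ S : Finset Qb, ∀ σ : GQ, (∀ s ∈ S, σ s = s) → σ ∈ H)
    (hI : ∀ q : ℕ, q.Prime → ∃ A : ValuationSubring Qb,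
      A.LiesOverPrime q ∧ A.inertiaSubgroupIn ℚ ≤ H) :
    H = ⊤ := by
  obtain ⟨S, hS⟩ := hS
  have halg : Algebra.IsAlgebraic ℚ Qb := AlgebraicClosure.isAlgebraic ℚ
  refine minkowski_one_of hMI H hH (IntermediateField.adjoin ℚ (S : Set Qb)) ?_ ?_ hI
  · exact IntermediateField.finiteDimensional_adjoin
      (fun x _ => (Algebra.IsAlgebraic.isAlgebraic (R := ℚ) x).isIntegral)
  · intro σ hσ
    refine hS σ fun s hs => ?_
    exact (IntermediateField.mem_fixingSubgroup_iff _ σ).mp hσ s
      (IntermediateField.subset_adjoin ℚ _ hs)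

/-- MINKOWSKI, subgroup form: an open normal subgroup of `Gal(Qbar/ℚ)` containing all inertia
groups is everything. -/
theorem minkowski_subgroup_of (hM : IfaceMinkowski.{0}) (H : Subgroup GQ) (hH : H.Normal)
    (E : IntermediateField ℚ Qb) (hE : FiniteDimensional ℚ E) (hEH : E.fixingSubgroup ≤ H)
    (hI : ∀ q : ℕ, q.Prime → ∀ A : ValuationSubring Qb, A.LiesOverPrime q →
      A.inertiaSubgroupIn ℚ ≤ H) :
    H = ⊤ := by
  have hker : (QuotientGroup.mk' H).ker = H := QuotientGroup.ker_mk' H
  have key := hM (QuotientGroup.mk' H) E hE (hker.symm ▸ hEH)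
    (fun q hq A hA => hker.symm ▸ hI q hq A hA)
  rw [eq_top_iff]
  intro σ _
  have h1 : σ ∈ (QuotientGroup.mk' H).ker := key σ
  rwa [hker] at h1

end Fermat.Agent.Bridge

end
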