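import Mathlib
import Fermat.Agent.Bridge.Interfaces2
import Fermat.Agent.Bridge.Profinite

/-!
# P-BRIDGE, module M2 (part c): lifting residue automorphisms

`resLift : IfaceResLift` : an element `σ` of the decomposition group of a valuation subring `A`
of `Qbar` which acts trivially on the residue field of the prime of `E` under `A` agrees, modulo
the maximal ideal of `A`, on all algebraic integers with an element of the decomposition group
which fixes `E` pointwise.  This is `Ideal.Quotient.stabilizerHom_surjective_of_profinite` for the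
profinite group `Gal(Qbar/E)` acting on the ring of all algebraic integers over `𝓞 E`.
-/

set_option autoImplicit false
set_option linter.style.haveILetI false

open NumberField Polynomial
open scoped Pointwise

noncomputable section

namespace Fermat.Agent.Bridge

attribute [local instance] Fermat.Agent.S54.galActionIntegers

/-- An element of the decomposition group of `A` stabilises the prime of the ring of all
algebraic integers cut out by `A`, and conversely. -/
theorem M2_smul_bigPrime_eq_iff (σ : GQ) (A : ValuationSubring Qb) :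
    σ • bigPrime A = bigPrime A ↔ σ • A = A := by
  rw [← M2_bigPrime_smul]
  exact ⟨fun h => M2_bigPrime_injective h, fun h => by rw [h]⟩

/-- General form of residue lifting (no finiteness assumption on `E`). -/
theorem M2_resLift (E : IntermediateField ℚ Qb) (A : ValuationSubring Qb) (σ : GQ)
    (hσ : σ • A = A)
    (htriv : ∀ x : 𝓞 E, σ ((x : E) : Qb) - ((x : E) : Qb) ∈ A.nonunits) :
    ∃ h : GQ, h ∈ E.fixingSubgroup ∧ h • A = A ∧
      ∀ x : Qb, IsIntegral ℤ x → h x - σ x ∈ A.nonunits := by
  letI : TopologicalSpace Zb := ⊥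
  haveI : DiscreteTopology Zb := ⟨rfl⟩
  haveI := Fermat.Agent.S54.isGalois_Qbar
  haveI := Fermat.Agent.S54.compactSpace_GalQbar
  haveI := Fermat.Agent.S54.totallyDisconnectedSpace_GalQbar
  haveI : CompactSpace E.fixingSubgroup :=
    isCompact_iff_compactSpace.mp (InfiniteGalois.fixingSubgroup_isClosed E).isCompact
  haveI : TotallyDisconnectedSpace E.fixingSubgroup := Subtype.totallyDisconnectedSpace
  letI : Algebra (𝓞 E) Zb := (ooToZb E).toAlgebra
  haveI : SMulCommClass E.fixingSubgroup (𝓞 E) Zb := by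
    refine ⟨fun g a b => Subtype.ext ?_⟩
    show (g : GQ) ((ooToZb E a : Zb) * b : Zb) = ((ooToZb E a : Zb) : Qb) * (g : GQ) (b : Qb)
    have hfix : (g : GQ) (((a : E) : Qb)) = ((a : E) : Qb) := g.2 ⟨((a : E) : Qb), (a : E).2⟩
    simp [hfix]
  haveI : ContinuousSMul E.fixingSubgroup Zb := by
    refine ⟨continuous_prod_of_discrete_right.mpr fun b => ?_⟩
    exact (Fermat.Agent.S54.continuous_smul_integers b).comp continuous_subtype_val
  haveI : Algebra.IsInvariant (𝓞 E) Zb E.fixingSubgroup := by
    refine ⟨fun b hb => ?_⟩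
    have hfix : ∀ σ ∈ E.fixingSubgroup, σ (b : Qb) = b := fun σ hσ =>
      congrArg Subtype.val (hb ⟨σ, hσ⟩)
    have hmem : (b : Qb) ∈ IntermediateField.fixedField E.fixingSubgroup := fun σ => hfix σ.1 σ.2
    rw [InfiniteGalois.fixedField_fixingSubgroup] at hmem
    have hint : IsIntegral ℤ (⟨(b : Qb), hmem⟩ : E) := by
      have h1 : IsIntegral ℤ (algebraMap E Qb ⟨(b : Qb), hmem⟩) := b.2
      exact (isIntegral_algebraMap_iff (algebraMap E Qb).injective).mp h1
    exact ⟨⟨⟨(b : Qb), hmem⟩, hint⟩, Subtype.ext rfl⟩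
  haveI hLO : (bigPrime A).LiesOver (primeUnder A E) := ⟨(M2_comap_bigPrime E A).symm⟩
  -- the automorphism of the residue field induced by `σ`
  have hσQ : σ • bigPrime A = bigPrime A := (M2_smul_bigPrime_eq_iff σ A).mpr hσ
  have hmap : bigPrime A =
      (bigPrime A).map ((MulSemiringAction.toRingEquiv GQ Zb σ : Zb ≃+* Zb) : Zb →+* Zb) :=
    hσQ.symm
  let ψ : (Zb ⧸ bigPrime A) ≃+* (Zb ⧸ bigPrime A) :=
    Ideal.quotientEquiv (bigPrime A) (bigPrime A) (MulSemiringAction.toRingEquiv GQ Zb σ) hmap
  have hψ : ∀ b : Zb, ψ (Ideal.Quotient.mk (bigPrime A) b) =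
      Ideal.Quotient.mk (bigPrime A) (σ • b) := fun b => rfl
  let φ : (Zb ⧸ bigPrime A) ≃ₐ[𝓞 E ⧸ primeUnder A E] (Zb ⧸ bigPrime A) :=
    { ψ with
      commutes' := fun r => by
        obtain ⟨a, rfl⟩ := Ideal.Quotient.mk_surjective r
        show ψ (Ideal.Quotient.mk (bigPrime A) (ooToZb E a)) =
          Ideal.Quotient.mk (bigPrime A) (ooToZb E a)
        rw [hψ, Ideal.Quotient.eq, mem_bigPrime]
        exact htriv a }
  obtain ⟨⟨g, hg⟩, hgφ⟩ := Ideal.Quotient.stabilizerHom_surjective_of_profinite
    (G := E.fixingSubgroup) (primeUnder A E) (bigPrime A) φ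
  refine ⟨g.1, g.2, ?_, ?_⟩
  · rw [← M2_smul_bigPrime_eq_iff]
    exact MulAction.mem_stabilizer_iff.mp hg
  · intro x hx
    have h := congrArg (fun χ => χ (Ideal.Quotient.mk (bigPrime A) (⟨x, hx⟩ : Zb))) hgφ
    have h' : Ideal.Quotient.mk (bigPrime A) (g • (⟨x, hx⟩ : Zb)) =
        Ideal.Quotient.mk (bigPrime A) (σ • (⟨x, hx⟩ : Zb)) := h
    rw [Ideal.Quotient.eq, mem_bigPrime] at h'
    exact h'

/-- (M2c) residue lifting. -/
theorem resLift : IfaceResLift := fun E _ A σ hσ htriv =>
  M2_resLift E A σ (MulAction.mem_stabilizer_iff.mp hσ) htriv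

end Fermat.Agent.Bridge

end
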