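import Mathlib
import Fermat.Agent.Bridge.MinkowskiOne
import Fermat.Agent.Bridge.Restrict
import Fermat.Agent.Bridge.Profinite
import Fermat.Agent.Bridge.ResLift
import Fermat.Agent.S13.Skeleton
import Fermat.Agent.S13.Defs

/-!
# P-BRIDGE, module M4: unconditional unramifiedness criterion and Minkowski's theorem

All interfaces of module M4 without hypotheses, together with the shapes consumed by the S13
assembly:

* `unramifiedIff : IfaceUnramifiedIff` (B3)
* `minkowski : IfaceMinkowski` (B4)
* `minkowskiAction : IfaceMinkowskiAction` (B4')
* `minkowski_one`, `minkowski_one_finset`, `minkowski_subgroup` : subgroup forms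
* `s13_ifaceMink : Fermat.Agent.S13.IfaceMink`, `s13_ifM : Fermat.Agent.S13.IfM`
-/

set_option autoImplicit false

open NumberField
open scoped Pointwise

noncomputable section

namespace Fermat.Agent.Bridge

universe u

/-- (B2b), unconditional: restriction to a finite Galois `E/ℚ` maps the inertia group of `A` onto
the inertia group of the prime of `E` under `A`. -/
theorem mapInertia_final : IfaceMapInertia := mapInertia_of conj resLift

/-- (B2a), unconditional: restriction to a finite Galois `E/ℚ` maps the decomposition group of
`A` onto the decomposition group of the prime of `E` under `A`. -/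
theorem mapDecomp_final : IfaceMapDecomp := mapDecomp_of conj

/-- (B3) inertia above `q` acts trivially on `E` iff `q` is unramified in `E`. -/
theorem unramifiedIff : IfaceUnramifiedIff := unramifiedIff_of mapInertia_final existsOver

/-- (B4) MINKOWSKI: a homomorphism from `Gal(Qbar/ℚ)` with open kernel which is trivial on all
inertia groups is trivial. -/
theorem minkowski : IfaceMinkowski.{u} := minkowski_of unramifiedIff

/-- (B4') MINKOWSKI, action form. -/
theorem minkowskiAction : IfaceMinkowskiAction.{u} := minkowskiAction_of minkowski

/-- MINKOWSKI, one place per prime: an open normal subgroup of `Gal(Qbar/ℚ)` containing, for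
every prime number, the inertia group of some valuation subring over it, is everything. -/
theorem minkowski_one (H : Subgroup GQ) (hH : H.Normal)
    (E : IntermediateField ℚ Qb) (hE : FiniteDimensional ℚ E) (hEH : E.fixingSubgroup ≤ H)
    (hI : ∀ q : ℕ, q.Prime → ∃ A : ValuationSubring Qb,
      A.LiesOverPrime q ∧ A.inertiaSubgroupIn ℚ ≤ H) :
    H = ⊤ :=
  minkowski_one_of mapInertia_final H hH E hE hEH hI

/-- MINKOWSKI, one place per prime, openness expressed by a finite subset of `Qbar`. -/
theorem minkowski_one_finset (H : Subgroup GQ) (hH : H.Normal)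
    (hS : ∃ S : Finset Qb, ∀ σ : GQ, (∀ s ∈ S, σ s = s) → σ ∈ H)
    (hI : ∀ q : ℕ, q.Prime → ∃ A : ValuationSubring Qb,
      A.LiesOverPrime q ∧ A.inertiaSubgroupIn ℚ ≤ H) :
    H = ⊤ :=
  minkowski_one_finset_of mapInertia_final H hH hS hI

/-- MINKOWSKI, subgroup form: an open normal subgroup of `Gal(Qbar/ℚ)` containing all inertia
groups is everything. -/
theorem minkowski_subgroup (H : Subgroup GQ) (hH : H.Normal)
    (E : IntermediateField ℚ Qb) (hE : FiniteDimensional ℚ E) (hEH : E.fixingSubgroup ≤ H)
    (hI : ∀ q : ℕ, q.Prime → ∀ A : ValuationSubring Qb, A.LiesOverPrime q →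
      A.inertiaSubgroupIn ℚ ≤ H) :
    H = ⊤ :=
  minkowski_subgroup_of minkowski H hH E hE hEH hI

/-- The S13 interface `IfaceMink` (skeleton form). -/
theorem s13_ifaceMink : Fermat.Agent.S13.IfaceMink :=
  fun H hH hS hI => minkowski_one_finset H hH hS hI

/-- The S13 interface `IfM` (assembly form). -/
theorem s13_ifM : Fermat.Agent.S13.IfM :=
  fun H hH hS hI => minkowski_one_finset H hH hS hI

end Fermat.Agent.Bridge

end
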