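import Mathlib
import Fermat.Agent.Bridge.Main
import Fermat.Agent.Bridge.ResLift
import Fermat.Agent.Bridge.MinkowskiFinal

/-!
# P-BRIDGE: the complete dictionary, hypothesis-free

All interfaces of `Interfaces.lean` / `Interfaces2.lean` are theorems:

| interface | theorem | file |
|---|---|---|
| `IfaceMemDecomp`, `IfaceMemInertia`, `IfaceMemInertiaInt`, `IfaceFrobInt` | `memDecomp`, `memInertia`, `memInertiaInt`, `frobInt` | `Dict.lean` |
| `IfaceExistsPrime`, `IfacePrimeUnderSmul` | `existsPrime`, `primeUnderSmul` | `Dict.lean` |
| `IfaceExistsOver`, `IfaceConj` | `existsOver`, `conj` | `Profinite.lean` |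
| `IfaceResLift` | `resLift` | `ResLift.lean` |
| `IfaceMapDecomp` | `mapDecomp` | `Main.lean` |
| `IfaceMapInertia` | `mapInertia` | this file |
| `IfaceUnramifiedIff`, `IfaceMinkowski`, `IfaceMinkowskiAction` | `unramifiedIff`, `minkowski`, `minkowskiAction` | `MinkowskiFinal.lean` |
| `IfaceExistsFrob`, `IfaceFrobUnique`, `IfaceFrobRestrict` | `existsFrob`, `frobUnique`, `frobRestrict` | `Frobenius.lean` |
| `IfaceFrobLift` | `frobLiftFinal` | this file |
-/

set_option autoImplicit false

open NumberField
open scoped Pointwise

noncomputable section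

namespace Fermat.Agent.Bridge

/-- (B2b) restriction maps the inertia group of `A` onto the inertia group of the prime of `E`
under `A`. -/
theorem mapInertia : IfaceMapInertia := mapInertia_of_resLift resLift

/-- (B5d) every arithmetic Frobenius of a finite Galois `E` at the prime under `A` is the
restriction of a Frobenius element at `A`. -/
theorem frobLiftFinal : IfaceFrobLift := frobLift_of_resLift resLift

/-- MINKOWSKI, subgroup form: a normal subgroup of `Gal(Qbar/ℚ)` which contains the pointwise
stabiliser of a finite set and, for every prime number `q`, the inertia group of *some*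
valuation subring over `q`, is the whole group. -/
theorem minkowski_normal (H : Subgroup GQ) (hH : H.Normal)
    (hopen : ∃ S : Finset Qb, ∀ σ : GQ, (∀ a ∈ S, σ a = a) → σ ∈ H)
    (hI : ∀ q : ℕ, q.Prime → ∃ A : ValuationSubring Qb, A.LiesOverPrime q ∧
      A.inertiaSubgroupIn ℚ ≤ H) : H = ⊤ :=
  minkowski_normal_of_resLift resLift H hH hopen hI

end Fermat.Agent.Bridge

end
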