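import Mathlib
import Fermat.Agent.Bridge.Main
import Fermat.Agent.S13.Defs
import Fermat.Agent.S13.Skeleton

/-!
# P-BRIDGE: the Minkowski interfaces of the S13 project

`IfM` (architect file `S13/Defs.lean`) and `IfaceMink` (file `S13/Skeleton.lean`) from the
residue lifting `IfaceResLift`.
-/

set_option autoImplicit false

noncomputable section

namespace Fermat.Agent.Bridge

/-- The Minkowski interface `IfM` of the S13 project, from the residue lifting. -/
theorem ifM_of_resLift (hres : IfaceResLift) : Fermat.Agent.S13.IfM :=
  fun H hH hopen hI => minkowski_normal_of_resLift hres H hH hopen hI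

/-- The Minkowski interface `IfaceMink` of the S13 project, from the residue lifting. -/
theorem ifaceMink_of_resLift (hres : IfaceResLift) : Fermat.Agent.S13.IfaceMink :=
  fun H hH hopen hI => minkowski_normal_of_resLift hres H hH hopen hI

end Fermat.Agent.Bridge

end
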