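import Mathlib
import Fermat.Agent.Bridge.Final
import Fermat.Agent.Bridge.ForS13

/-!
# P-BRIDGE: the Minkowski interfaces of the S13 project, hypothesis-free
-/

set_option autoImplicit false

noncomputable section

namespace Fermat.Agent.Bridge

/-- The Minkowski interface `IfM` of the S13 project (architect file `S13/Defs.lean`). -/
theorem ifM : Fermat.Agent.S13.IfM := ifM_of_resLift resLift

/-- The Minkowski interface `IfaceMink` of the S13 project (file `S13/Skeleton.lean`). -/
theorem ifaceMink : Fermat.Agent.S13.IfaceMink := ifaceMink_of_resLift resLift

end Fermat.Agent.Bridge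

end
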