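import Mathlib
import Fermat.Agent.Bridge.Dict
import Fermat.Agent.Bridge.Frobenius

/-!
# P-BRIDGE: Frobenius elements — conjugation and the Frobenius coset

* `liesOverPrime_smul_iff`: `τ • A` lies over `q` iff `A` does.
* `isFrobeniusAt_conj`: if `σ` is a Frobenius element at `A` then `τ σ τ⁻¹` is a Frobenius
  element at `τ • A`.
* `isFrobeniusAt_iff_inv_mul_mem_inertia`: the Frobenius elements at `A` form a coset of the
  inertia group.
* `isFrobeniusAt_of_forall_mem`, `isFrobeniusAt_iff_forall_integral`: elementwise criteria.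
-/

set_option autoImplicit false

open NumberField
open scoped Pointwise

noncomputable section

namespace Fermat.Agent.Bridge

/-- `τ • A` lies over `q` iff `A` does. -/
theorem liesOverPrime_smul_iff (A : ValuationSubring Qb) (τ : GQ) (q : ℕ) :
    (τ • A).LiesOverPrime q ↔ A.LiesOverPrime q := by
  unfold ValuationSubring.LiesOverPrime
  rw [mem_nonunits_smul_iff]
  have e : (τ⁻¹ : GQ) (q : Qb) = (q : Qb) := map_natCast (τ⁻¹ : GQ) q
  rw [e]

/-- Elementwise criterion on algebraic integers (restatement of `frobInt`). -/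
theorem isFrobeniusAt_iff_forall_integral {A : ValuationSubring Qb} {q : ℕ} (hq : q.Prime)
    (hA : A.LiesOverPrime q) (σ : GQ) :
    A.IsFrobeniusAt σ q ↔ ∀ x : Qb, IsIntegral ℤ x → σ x - x ^ q ∈ A.nonunits :=
  frobInt A q hq hA σ

/-- If `σ` is a Frobenius element at `A` then `τ σ τ⁻¹` is a Frobenius element at `τ • A`. -/
theorem isFrobeniusAt_conj {A : ValuationSubring Qb} {q : ℕ} (hq : q.Prime)
    (hA : A.LiesOverPrime q) {σ : GQ} (hσ : A.IsFrobeniusAt σ q) (τ : GQ) :
    (τ • A).IsFrobeniusAt (τ * σ * τ⁻¹) q := by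
  rw [isFrobeniusAt_iff_forall_integral hq ((liesOverPrime_smul_iff A τ q).mpr hA)]
  intro x hx
  rw [mem_nonunits_smul_iff]
  have hx' : IsIntegral ℤ ((τ⁻¹ : GQ) x) := map_isIntegral_int (τ⁻¹ : GQ) hx
  have h := (isFrobeniusAt_iff_forall_integral hq hA σ).mp hσ _ hx'
  have e : (τ⁻¹ : GQ) ((τ * σ * τ⁻¹) x - x ^ q) = σ ((τ⁻¹ : GQ) x) - ((τ⁻¹ : GQ) x) ^ q := by
    rw [map_sub, map_pow]
    congr 1
    show (τ⁻¹ : GQ) (τ (σ ((τ⁻¹ : GQ) x))) = σ ((τ⁻¹ : GQ) x)
    exact τ.symm_apply_apply _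
  rw [e]
  exact h

/-- The Frobenius elements at `A` form a coset of the inertia group: given one Frobenius element
`σ₀`, an element `σ` is a Frobenius element iff `σ₀⁻¹ * σ` lies in the inertia group. -/
theorem isFrobeniusAt_iff_inv_mul_mem_inertia {A : ValuationSubring Qb} {q : ℕ} {σ₀ : GQ}
    (hσ₀ : A.IsFrobeniusAt σ₀ q) (σ : GQ) :
    A.IsFrobeniusAt σ q ↔ σ₀⁻¹ * σ ∈ A.inertiaSubgroupIn ℚ := by
  constructor
  · intro hσ
    exact frobUnique A q σ₀ σ hσ₀ hσ
  · intro h
    -- σ = σ₀ * (σ₀⁻¹ * σ); inertia is normal in the decomposition group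
    obtain ⟨hσ₀D, hσ₀x⟩ := hσ₀
    obtain ⟨ι, hι, hιe⟩ := h
    have hker : ∀ x : IsLocalRing.ResidueField A, ι • x = x := by
      intro x
      have h1 : MulSemiringAction.toRingAut (A.decompositionSubgroup ℚ)
          (IsLocalRing.ResidueField A) ι = 1 := hι
      exact congrArg (fun f => f x) h1
    have hσeq : σ = σ₀ * (A.decompositionSubgroup ℚ).subtype ι := by
      rw [hιe, mul_inv_cancel_left]
    have hσD : σ ∈ A.decompositionSubgroup ℚ := by
      rw [hσeq]
      exact (A.decompositionSubgroup ℚ).mul_mem hσ₀D ι.2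
    refine ⟨hσD, fun x => ?_⟩
    have e : (⟨σ, hσD⟩ : A.decompositionSubgroup ℚ) = ⟨σ₀, hσ₀D⟩ * ι := by
      apply Subtype.ext
      exact hσeq
    rw [e, mul_smul, hker, hσ₀x]

/-- A Frobenius element times an element of the inertia group is a Frobenius element. -/
theorem isFrobeniusAt_mul_inertia {A : ValuationSubring Qb} {q : ℕ} {ι σ : GQ}
    (hσ : A.IsFrobeniusAt σ q) (hι : ι ∈ A.inertiaSubgroupIn ℚ) :
    A.IsFrobeniusAt (σ * ι) q := by
  rw [isFrobeniusAt_iff_inv_mul_mem_inertia hσ, inv_mul_cancel_left]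
  exact hι

/-- Frobenius elements lie in the decomposition group, in the elementwise form of
`IfaceMemDecomp`. -/
theorem IsFrobeniusAt_mem_iff {A : ValuationSubring Qb} {q : ℕ} {σ : GQ}
    (hσ : A.IsFrobeniusAt σ q) (x : Qb) : σ x ∈ A ↔ x ∈ A :=
  (memDecomp A σ).mp hσ.mem_decompositionSubgroup x

end Fermat.Agent.Bridge

end
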