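import Mathlib
import Fermat.Prelude.Def_FLTPrelim_Ramification
import Fermat.Agent.S54.FrobValuation

/-!
# Bridge (B2/B4): membership criteria for the inertia subgroup of a valuation subring

* `mem_inertiaSubgroupIn_of` : an automorphism stabilising `A` and acting trivially modulo
  the maximal ideal of `A` lies in `A.inertiaSubgroupIn`.
* `mem_inertiaSubgroupIn_of_integral` : for a field algebraic over `ℤ` and `A` above a prime `l`,
  it suffices to check both conditions on integral elements.
-/

set_option autoImplicit false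

namespace Fermat.Agent.Bridge.H47

open scoped Pointwise

variable {k L : Type*} [Field k] [Field L] [Algebra k L]

/-- An element of the decomposition group acting trivially on the residue field lies in the
inertia subgroup (in the Prelude's sense). -/
theorem mem_inertiaSubgroupIn_of (A : ValuationSubring L) {σ : L ≃ₐ[k] L}
    (hσ : σ ∈ A.decompositionSubgroup k)
    (h : ∀ z : L, z ∈ A → σ z - z ∈ A.nonunits) : σ ∈ A.inertiaSubgroupIn k := by
  refine ⟨⟨σ, hσ⟩, ?_, rfl⟩
  show MulSemiringAction.toRingAut (A.decompositionSubgroup k)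
      (IsLocalRing.ResidueField A) ⟨σ, hσ⟩ = 1
  ext x
  obtain ⟨a, rfl⟩ := IsLocalRing.residue_surjective x
  show (⟨σ, hσ⟩ : A.decompositionSubgroup k) • IsLocalRing.residue A a = IsLocalRing.residue A a
  rw [← IsLocalRing.ResidueField.residue_smul, ← sub_eq_zero, ← map_sub,
    IsLocalRing.residue_eq_zero_iff, ← ValuationSubring.coe_mem_nonunits_iff]
  exact h a a.2

/-- The converse of `mem_inertiaSubgroupIn_of`. -/
theorem mem_inertiaSubgroupIn_iff (A : ValuationSubring L) {σ : L ≃ₐ[k] L} :
    σ ∈ A.inertiaSubgroupIn k ↔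
      σ ∈ A.decompositionSubgroup k ∧ ∀ z : L, z ∈ A → σ z - z ∈ A.nonunits := by
  constructor
  · rintro ⟨τ, hτ, rfl⟩
    refine ⟨τ.2, fun z hz => ?_⟩
    have hmem : (τ : L ≃ₐ[k] L) z ∈ A := ((τ • (⟨z, hz⟩ : A) : A)).2
    have hker : MulSemiringAction.toRingAut (A.decompositionSubgroup k)
        (IsLocalRing.ResidueField A) τ = 1 := hτ
    have h1 : τ • IsLocalRing.residue A ⟨z, hz⟩ = IsLocalRing.residue A ⟨z, hz⟩ := by
      have := congrArg (fun e : RingAut (IsLocalRing.ResidueField A) =>
        e (IsLocalRing.residue A ⟨z, hz⟩)) hker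
      simpa using this
    rw [← IsLocalRing.ResidueField.residue_smul] at h1
    have h2 : IsLocalRing.residue A (τ • (⟨z, hz⟩ : A) - ⟨z, hz⟩) = 0 := by
      rw [map_sub, h1, sub_self]
    rw [IsLocalRing.residue_eq_zero_iff] at h2
    rw [ValuationSubring.mem_nonunits_iff_exists_mem_maximalIdeal]
    exact ⟨sub_mem hmem hz, h2⟩
  · rintro ⟨h1, h2⟩
    exact mem_inertiaSubgroupIn_of A h1 h2

/-- For a field algebraic over `ℤ` and a valuation subring above `l`, an automorphism which
preserves the non-units among integral elements and acts trivially modulo the non-units on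
integral elements lies in the inertia subgroup. -/
theorem mem_inertiaSubgroupIn_of_integral [CharZero L]
    (halg : ∀ x : L, IsAlgebraic ℤ x)
    (A : ValuationSubring L) {l : ℕ} (hl : l.Prime) (hA : (l : L) ∈ A.nonunits)
    (σ : L ≃ₐ[k] L)
    (h1 : ∀ x, IsIntegral ℤ x → (σ x ∈ A.nonunits ↔ x ∈ A.nonunits))
    (h2 : ∀ x, IsIntegral ℤ x → σ x - x ∈ A.nonunits) :
    σ ∈ A.inertiaSubgroupIn k := by
  have hσmem : σ ∈ A.decompositionSubgroup k := by
    rw [MulAction.mem_stabilizer_iff]
    apply SetLike.ext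
    intro x
    rw [ValuationSubring.mem_pointwise_smul_iff_inv_smul_mem]
    constructor
    · intro hx
      have h := Fermat.Agent.S54.map_mem_of_preserves_nonunits halg A hl hA (σ : L ≃+* L) h1 hx
      have e : (σ : L ≃+* L) (σ⁻¹ • x) = x := by
        show σ (σ⁻¹ x) = x
        exact σ.apply_symm_apply x
      rwa [e] at h
    · intro hx
      have h1' : ∀ y, IsIntegral ℤ y →
          (((σ⁻¹ : L ≃ₐ[k] L) : L ≃+* L) y ∈ A.nonunits ↔ y ∈ A.nonunits) := by
        intro y hy
        have hy' : IsIntegral ℤ ((σ⁻¹ : L ≃ₐ[k] L) y) := map_isIntegral_int _ hy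
        have h := h1 _ hy'
        have e : σ ((σ⁻¹ : L ≃ₐ[k] L) y) = y := σ.apply_symm_apply y
        rw [e] at h
        exact h.symm
      exact Fermat.Agent.S54.map_mem_of_preserves_nonunits halg A hl hA
        ((σ⁻¹ : L ≃ₐ[k] L) : L ≃+* L) h1' hx
  refine mem_inertiaSubgroupIn_of A hσmem fun a ha => ?_
  obtain ⟨b, s, hb, hs, hsn, hxs⟩ :=
    Fermat.Agent.S54.exists_integral_frac A hl hA (halg a) ha
  have hσa : σ a ∈ A :=
    Fermat.Agent.S54.map_mem_of_preserves_nonunits halg A hl hA (σ : L ≃+* L) h1 ha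
  have hsA : s ∈ A := Fermat.Agent.S54.mem_valuationSubring_of_isIntegral A hs
  have hvs : A.valuation s = 1 :=
    le_antisymm ((A.valuation_le_one_iff _).mpr hsA)
      (not_lt.mp (fun h => hsn ((ValuationSubring.mem_nonunits_iff A).mpr h)))
  have hmul : σ a * σ s = σ b := by rw [← map_mul, hxs]
  have hid : (σ a - a) * s = (σ b - b) - σ a * (σ s - s) := by
    rw [← hmul, ← hxs]
    ring
  have hrhs : (σ b - b) - σ a * (σ s - s) ∈ A.nonunits := by
    refine A.nonunits.sub_mem (h2 b hb) ?_
    have h := h2 s hs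
    rw [ValuationSubring.mem_nonunits_iff] at h ⊢
    rw [map_mul, mul_comm]
    exact mul_lt_one_of_nonneg_of_lt_one_left zero_le h ((A.valuation_le_one_iff _).mpr hσa)
  rw [← hid, ValuationSubring.mem_nonunits_iff, map_mul, hvs, mul_one] at hrhs
  exact (ValuationSubring.mem_nonunits_iff A).mpr hrhs

end Fermat.Agent.Bridge.H47
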